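import Mathlib

/-!
# S56 / W-BASE / W3-UNITS (helper614): characteristic polynomials in split exact sequences

Mathlib-only linear algebra used for the characteristic polynomial of a Galois element on the
`T`-units modulo `p`:

* `charpoly_triMap` : block upper triangular maps on a product.
* `charpoly_of_split` : `charpoly f = charpoly (r f ι) * charpoly (g f s)` for a split exact
  sequence `0 → V₁ →ι V →g V₂ → 0` (retraction `r`, section `s`) with `f`-stable kernel.
* `charpoly_baseChange_of_exact` : the same after base change `k ⊗_R -` of an exact sequence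
  `0 → N → E →g F → 0` of `R`-modules with `F` free of finite rank.
-/

set_option autoImplicit false

noncomputable section

namespace Fermat.Agent.S56.H614

open Polynomial Module

section Triangular

variable {R : Type*} [CommRing R] {M₁ M₂ : Type*}
  [AddCommGroup M₁] [Module R M₁] [AddCommGroup M₂] [Module R M₂]

/-- The block upper triangular endomorphism `(x, y) ↦ (a x + b y, d y)` of `M₁ × M₂`. -/
def triMap (a : M₁ →ₗ[R] M₁) (b : M₂ →ₗ[R] M₁) (d : M₂ →ₗ[R] M₂) :
    (M₁ × M₂) →ₗ[R] (M₁ × M₂) :=
  (a.coprod b).prod (d.comp (LinearMap.snd R M₁ M₂))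

@[simp] lemma triMap_apply (a : M₁ →ₗ[R] M₁) (b : M₂ →ₗ[R] M₁) (d : M₂ →ₗ[R] M₂)
    (x : M₁ × M₂) : triMap a b d x = (a x.1 + b x.2, d x.2) := rfl

variable [Module.Finite R M₁] [Module.Free R M₁] [Module.Finite R M₂] [Module.Free R M₂]

/-- The characteristic polynomial of a block upper triangular map. -/
theorem charpoly_triMap (a : M₁ →ₗ[R] M₁) (b : M₂ →ₗ[R] M₁) (d : M₂ →ₗ[R] M₂) :
    (triMap a b d).charpoly = a.charpoly * d.charpoly := by
  classical
  let b₁ := Free.chooseBasis R M₁
  let b₂ := Free.chooseBasis R M₂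
  rw [← LinearMap.charpoly_toMatrix a b₁, ← LinearMap.charpoly_toMatrix d b₂,
    ← LinearMap.charpoly_toMatrix (triMap a b d) (b₁.prod b₂)]
  have h : LinearMap.toMatrix (b₁.prod b₂) (b₁.prod b₂) (triMap a b d) =
      Matrix.fromBlocks (LinearMap.toMatrix b₁ b₁ a) (LinearMap.toMatrix b₂ b₁ b) 0
        (LinearMap.toMatrix b₂ b₂ d) := by
    ext i j
    rcases i with i | i <;> rcases j with j | j <;>
      simp [LinearMap.toMatrix_apply, triMap_apply]
  rw [h, Matrix.charpoly_fromBlocks_zero₂₁]

end Triangular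

section Split

variable {R : Type*} [CommRing R] {V V₁ V₂ : Type*}
  [AddCommGroup V] [Module R V] [Module.Finite R V] [Module.Free R V]
  [AddCommGroup V₁] [Module R V₁] [Module.Finite R V₁] [Module.Free R V₁]
  [AddCommGroup V₂] [Module R V₂] [Module.Finite R V₂] [Module.Free R V₂]

/-- The linear equivalence `V ≃ V₁ × V₂` of a split exact sequence. -/
def splitEquiv (ι : V₁ →ₗ[R] V) (r : V →ₗ[R] V₁) (s : V₂ →ₗ[R] V) (g : V →ₗ[R] V₂)
    (hrι : r ∘ₗ ι = LinearMap.id) (hgs : g ∘ₗ s = LinearMap.id) (hgι : g ∘ₗ ι = 0)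
    (hrs : r ∘ₗ s = 0) (hsum : ι ∘ₗ r + s ∘ₗ g = LinearMap.id) : V ≃ₗ[R] (V₁ × V₂) :=
  LinearEquiv.ofLinearMap (r.prod g) (ι.coprod s)
    (by
      apply LinearMap.ext
      rintro ⟨x, y⟩
      have h1 := LinearMap.congr_fun hrι x
      have h2 := LinearMap.congr_fun hgs y
      have h3 := LinearMap.congr_fun hgι x
      have h4 := LinearMap.congr_fun hrs y
      simp only [LinearMap.comp_apply, LinearMap.id_apply, LinearMap.zero_apply] at h1 h2 h3 h4
      simp [h1, h2, h3, h4])
    (by
      apply LinearMap.ext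
      intro x
      have h := LinearMap.congr_fun hsum x
      simpa using h)

/-- Characteristic polynomial in a split exact sequence. -/
theorem charpoly_of_split (ι : V₁ →ₗ[R] V) (r : V →ₗ[R] V₁) (s : V₂ →ₗ[R] V) (g : V →ₗ[R] V₂)
    (hrι : r ∘ₗ ι = LinearMap.id) (hgs : g ∘ₗ s = LinearMap.id) (hgι : g ∘ₗ ι = 0)
    (hrs : r ∘ₗ s = 0) (hsum : ι ∘ₗ r + s ∘ₗ g = LinearMap.id)
    (f : V →ₗ[R] V) (hf : g ∘ₗ f ∘ₗ ι = 0) :
    f.charpoly = (r ∘ₗ f ∘ₗ ι).charpoly * (g ∘ₗ f ∘ₗ s).charpoly := by
  let e := splitEquiv ι r s g hrι hgs hgι hrs hsum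
  have hconj : e.conj f = triMap (r ∘ₗ f ∘ₗ ι) (r ∘ₗ f ∘ₗ s) (g ∘ₗ f ∘ₗ s) := by
    apply LinearMap.ext
    rintro ⟨x, y⟩
    have h3 := LinearMap.congr_fun hf x
    simp only [LinearMap.comp_apply, LinearMap.zero_apply] at h3
    simp [e, splitEquiv, LinearEquiv.conj_apply, h3]
  rw [← LinearEquiv.charpoly_conj e f, hconj, charpoly_triMap]

end Split

section BaseChange

open scoped TensorProduct

variable {R : Type*} [CommRing R] (k : Type*) [Field k] [Algebra R k]
  {E F : Type*} [AddCommGroup E] [Module R E] [Module.Finite R E]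
  [AddCommGroup F] [Module R F] [Module.Free R F] [Module.Finite R F]

/-- **Characteristic polynomials after base change in an exact sequence with free cokernel.**
`0 → N → E →g F → 0` exact, `F` free of finite rank, `f` an endomorphism of `E` inducing `f'` on
`F`.  Then over a field `k`: `charpoly (k ⊗ f) = charpoly (k ⊗ f|_N) * charpoly (k ⊗ f')`. -/
theorem charpoly_baseChange_of_exact (N : Submodule R E) [Module.Finite R N]
    (g : E →ₗ[R] F) (hg : Function.Surjective g) (hker : LinearMap.ker g = N)
    (f : E →ₗ[R] E) (f' : F →ₗ[R] F) (hfg : g ∘ₗ f = f' ∘ₗ g) (hN : N ≤ N.comap f) :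
    (f.baseChange k).charpoly =
      ((f.restrict hN).baseChange k).charpoly * (f'.baseChange k).charpoly := by
  obtain ⟨s, hs⟩ := Module.projective_lifting_property g (LinearMap.id : F →ₗ[R] F) hg
  have hgs' : ∀ y, g (s y) = y := fun y => LinearMap.congr_fun hs y
  have hmem : ∀ x : E, ((LinearMap.id : E →ₗ[R] E) - s ∘ₗ g) x ∈ N := by
    intro x
    rw [← hker, LinearMap.mem_ker]
    simp [hgs']
  let r : E →ₗ[R] N := LinearMap.codRestrict N ((LinearMap.id : E →ₗ[R] E) - s ∘ₗ g) hmem
  have hNg : ∀ n : N, g (n : E) = 0 := by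
    intro n
    have : (n : E) ∈ LinearMap.ker g := by rw [hker]; exact n.2
    exact this
  have hrι : r ∘ₗ N.subtype = LinearMap.id := by
    apply LinearMap.ext
    intro n
    apply Subtype.ext
    simp [r, hNg]
  have hgι : g ∘ₗ N.subtype = 0 := by
    apply LinearMap.ext
    intro n
    simp [hNg]
  have hrs : r ∘ₗ s = 0 := by
    apply LinearMap.ext
    intro y
    apply Subtype.ext
    simp [r, hgs']
  have hsum : N.subtype ∘ₗ r + s ∘ₗ g = LinearMap.id := by
    apply LinearMap.ext
    intro x
    simp [r]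
  have hrest : r ∘ₗ f ∘ₗ N.subtype = f.restrict hN := by
    apply LinearMap.ext
    intro n
    apply Subtype.ext
    have h1 : g (f (n : E)) = 0 := by
      have := LinearMap.congr_fun hfg (n : E)
      simp only [LinearMap.comp_apply] at this
      rw [this, hNg, map_zero]
    simp [r, h1, LinearMap.restrict_apply]
  have hquot : g ∘ₗ f ∘ₗ s = f' := by
    apply LinearMap.ext
    intro y
    have := LinearMap.congr_fun hfg (s y)
    simp only [LinearMap.comp_apply] at this
    simp [this, hgs']
  have hzero : g ∘ₗ f ∘ₗ N.subtype = 0 := by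
    apply LinearMap.ext
    intro n
    have := LinearMap.congr_fun hfg (n : E)
    simp only [LinearMap.comp_apply] at this
    simp [this, hNg]
  have key := charpoly_of_split (R := k) (N.subtype.baseChange k) (r.baseChange k)
    (s.baseChange k) (g.baseChange k)
    (by rw [← LinearMap.baseChange_comp, hrι, LinearMap.baseChange_id])
    (by rw [← LinearMap.baseChange_comp, hs, LinearMap.baseChange_id])
    (by rw [← LinearMap.baseChange_comp, hgι, LinearMap.baseChange_zero])
    (by rw [← LinearMap.baseChange_comp, hrs, LinearMap.baseChange_zero])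
    (by rw [← LinearMap.baseChange_comp, ← LinearMap.baseChange_comp, ← LinearMap.baseChange_add,
      hsum, LinearMap.baseChange_id])
    (f.baseChange k)
    (by rw [← LinearMap.baseChange_comp, ← LinearMap.baseChange_comp, hzero,
      LinearMap.baseChange_zero])
  rw [key, ← LinearMap.baseChange_comp, ← LinearMap.baseChange_comp, hrest,
    ← LinearMap.baseChange_comp, ← LinearMap.baseChange_comp, hquot]

/-- Finite generation of the middle term of an exact sequence. -/
theorem finite_of_exact {N E F : Type*} [AddCommGroup N] [Module R N] [Module.Finite R N]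
    [AddCommGroup E] [Module R E] [AddCommGroup F] [Module R F] [Module.Finite R F]
    (i : N →ₗ[R] E) (g : E →ₗ[R] F) (hg : Function.Surjective g)
    (hex : LinearMap.range i = LinearMap.ker g) :
    Module.Finite R E := by
  have h1 : (LinearMap.range i).FG := by
    rw [LinearMap.range_eq_map]
    exact Submodule.FG.map i Module.Finite.fg_top
  have h2 : (⊤ : Submodule R E).FG := by
    apply Submodule.fg_of_fg_map_of_fg_inf_ker g
    · rw [Submodule.map_top, LinearMap.range_eq_top.mpr hg]
      exact Module.Finite.fg_top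
    · rw [top_inf_eq, ← hex]; exact h1
  exact ⟨h2⟩

/-- **Characteristic polynomials after base change in an exact sequence with free cokernel**
(version with explicit maps).  `0 → N →i E →g F → 0` exact, `F` free of finite rank, compatible
endomorphisms `fN, fE, fF`.  Then over a field `k`:
`charpoly (k ⊗ fE) = charpoly (k ⊗ fN) * charpoly (k ⊗ fF)`. -/
theorem charpoly_baseChange_of_exact' {N : Type*} [AddCommGroup N] [Module R N]
    [Module.Finite R N]
    (i : N →ₗ[R] E) (hi : Function.Injective i) (g : E →ₗ[R] F) (hg : Function.Surjective g)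
    (hex : LinearMap.range i = LinearMap.ker g)
    (fN : N →ₗ[R] N) (fE : E →ₗ[R] E) (fF : F →ₗ[R] F)
    (h1 : i ∘ₗ fN = fE ∘ₗ i) (h2 : g ∘ₗ fE = fF ∘ₗ g) :
    (fE.baseChange k).charpoly = (fN.baseChange k).charpoly * (fF.baseChange k).charpoly := by
  obtain ⟨s, hs⟩ := Module.projective_lifting_property g (LinearMap.id : F →ₗ[R] F) hg
  have hgs' : ∀ y, g (s y) = y := fun y => LinearMap.congr_fun hs y
  have hgi : ∀ n, g (i n) = 0 := by
    intro n
    have : i n ∈ LinearMap.ker g := by rw [← hex]; exact LinearMap.mem_range_self i n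
    exact this
  have hmem : ∀ x : E, ((LinearMap.id : E →ₗ[R] E) - s ∘ₗ g) x ∈ LinearMap.range i := by
    intro x
    rw [hex, LinearMap.mem_ker]
    simp [hgs']
  let r : E →ₗ[R] N := (LinearEquiv.ofInjective i hi).symm.toLinearMap ∘ₗ
    LinearMap.codRestrict (LinearMap.range i) ((LinearMap.id : E →ₗ[R] E) - s ∘ₗ g) hmem
  have hir : ∀ x, i (r x) = x - s (g x) := by
    intro x
    simp [r]
  have hrι : r ∘ₗ i = LinearMap.id := by
    apply LinearMap.ext
    intro n
    apply hi
    simp [hir, hgi]
  have hgι : g ∘ₗ i = 0 := by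
    apply LinearMap.ext
    intro n
    simp [hgi]
  have hrs : r ∘ₗ s = 0 := by
    apply LinearMap.ext
    intro y
    apply hi
    simp [hir, hgs']
  have hsum : i ∘ₗ r + s ∘ₗ g = LinearMap.id := by
    apply LinearMap.ext
    intro x
    simp [hir]
  have hfi : ∀ n, fE (i n) = i (fN n) := fun n => (LinearMap.congr_fun h1 n).symm
  have hgf : ∀ x, g (fE x) = fF (g x) := fun x => LinearMap.congr_fun h2 x
  have hrest : r ∘ₗ fE ∘ₗ i = fN := by
    apply LinearMap.ext
    intro n
    apply hi
    simp [hir, hgi, hfi]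
  have hquot : g ∘ₗ fE ∘ₗ s = fF := by
    apply LinearMap.ext
    intro y
    simp [hgf, hgs']
  have hzero : g ∘ₗ fE ∘ₗ i = 0 := by
    apply LinearMap.ext
    intro n
    simp [hgf, hgi]
  have key := charpoly_of_split (R := k) (i.baseChange k) (r.baseChange k)
    (s.baseChange k) (g.baseChange k)
    (by rw [← LinearMap.baseChange_comp, hrι, LinearMap.baseChange_id])
    (by rw [← LinearMap.baseChange_comp, hs, LinearMap.baseChange_id])
    (by rw [← LinearMap.baseChange_comp, hgι, LinearMap.baseChange_zero])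
    (by rw [← LinearMap.baseChange_comp, hrs, LinearMap.baseChange_zero])
    (by rw [← LinearMap.baseChange_comp, ← LinearMap.baseChange_comp, ← LinearMap.baseChange_add,
      hsum, LinearMap.baseChange_id])
    (fE.baseChange k)
    (by rw [← LinearMap.baseChange_comp, ← LinearMap.baseChange_comp, hzero,
      LinearMap.baseChange_zero])
  rw [key, ← LinearMap.baseChange_comp, ← LinearMap.baseChange_comp, hrest,
    ← LinearMap.baseChange_comp, ← LinearMap.baseChange_comp, hquot]

end BaseChange

end Fermat.Agent.S56.H614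

end
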