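import Mathlib
import Fermat.Agent.S56.H614.CharpolySES

/-!
# S56 / W-BASE / W3-UNITS (helper614): characteristic polynomials of lattices

* `permCharpoly R σ` : characteristic polynomial of `a ↦ a ∘ σ` on `X → R`; compatible with
  ring homomorphisms (`permCharpoly_map`).
* `charpoly_restrict_of_smul_mem` : a stable sublattice of finite index has the same
  characteristic polynomial.
* `charpoly_of_real_lattice` : a lattice `Λ₀ → W` in a real vector space, spanning a subspace
  `H`: the characteristic polynomial on `H` is the one on `Λ₀`.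
* `charpoly_of_exact` : characteristic polynomials in exact sequences of vector spaces.
-/

set_option autoImplicit false

noncomputable section

namespace Fermat.Agent.S56.H614

open Polynomial Module

open scoped TensorProduct

section Perm

variable (R : Type*) [CommRing R] {X : Type*} [Finite X]

/-- The characteristic polynomial of the map `a ↦ a ∘ σ` on `X → R`. -/
def permCharpoly (σ : X → X) : R[X] := (LinearMap.funLeft R R σ).charpoly

lemma permCharpoly_eq_matrix [Fintype X] [DecidableEq X] (σ : X → X) :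
    permCharpoly R σ =
      (Matrix.of fun i j : X => if σ i = j then (1 : R) else 0).charpoly := by
  rw [permCharpoly, ← LinearMap.charpoly_toMatrix _ (Pi.basisFun R X)]
  congr 1
  ext i j
  simp [LinearMap.funLeft_apply, Pi.single_apply, eq_comm]

theorem permCharpoly_map {S : Type*} [CommRing S] (f : R →+* S) (σ : X → X) :
    (permCharpoly R σ).map f = permCharpoly S σ := by
  classical
  let _ : Fintype X := Fintype.ofFinite X
  rw [permCharpoly_eq_matrix, permCharpoly_eq_matrix, ← Matrix.charpoly_map]
  congr 1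
  ext i j
  simp only [Matrix.map_apply, Matrix.of_apply]
  split_ifs <;> simp

end Perm

section Field

variable {k : Type*} [Field k] {N E F : Type*}
  [AddCommGroup N] [Module k N] [Module.Finite k N]
  [AddCommGroup E] [Module k E] [Module.Finite k E]
  [AddCommGroup F] [Module k F] [Module.Finite k F]

/-- Characteristic polynomials in an exact sequence of finite-dimensional vector spaces. -/
theorem charpoly_of_exact (i : N →ₗ[k] E) (hi : Function.Injective i) (g : E →ₗ[k] F)
    (hg : Function.Surjective g) (hex : LinearMap.range i = LinearMap.ker g)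
    (fN : N →ₗ[k] N) (fE : E →ₗ[k] E) (fF : F →ₗ[k] F)
    (h1 : i ∘ₗ fN = fE ∘ₗ i) (h2 : g ∘ₗ fE = fF ∘ₗ g) :
    fE.charpoly = fN.charpoly * fF.charpoly := by
  have h := charpoly_baseChange_of_exact' (R := k) k i hi g hg hex fN fE fF h1 h2
  rw [LinearMap.charpoly_baseChange, LinearMap.charpoly_baseChange,
    LinearMap.charpoly_baseChange] at h
  simpa using h

end Field

section FiniteIndex

variable {M : Type*} [AddCommGroup M] [Module.Free ℤ M] [Module.Finite ℤ M]

/-- A stable sublattice of finite index has the same characteristic polynomial. -/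
theorem charpoly_restrict_of_smul_mem (f : M →ₗ[ℤ] M) (Λ : Submodule ℤ M)
    (hΛ : Λ ≤ Λ.comap f) (m : ℤ) (hm : m ≠ 0) (hmem : ∀ x : M, m • x ∈ Λ) :
    (f.restrict hΛ).charpoly = f.charpoly := by
  have hinj : Function.Injective (Λ.subtype.baseChange ℚ) := by
    rw [LinearMap.baseChange_eq_ltensor]
    exact Module.Flat.lTensor_preserves_injective_linearMap _ Λ.injective_subtype
  have hsurj : Function.Surjective (Λ.subtype.baseChange ℚ) := by
    intro y
    induction y using TensorProduct.induction_on with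
    | zero => exact ⟨0, map_zero _⟩
    | tmul q x =>
      refine ⟨(q / (m : ℚ)) ⊗ₜ[ℤ] (⟨m • x, hmem x⟩ : Λ), ?_⟩
      rw [LinearMap.baseChange_tmul]
      simp only [Submodule.subtype_apply]
      rw [TensorProduct.tmul_smul, TensorProduct.smul_tmul']
      congr 1
      have hm' : (m : ℚ) ≠ 0 := by exact_mod_cast hm
      rw [zsmul_eq_mul]
      field_simp
    | add a b ha hb =>
      obtain ⟨a', rfl⟩ := ha
      obtain ⟨b', rfl⟩ := hb
      exact ⟨a' + b', map_add _ _ _⟩
  let e : (ℚ ⊗[ℤ] Λ) ≃ₗ[ℚ] (ℚ ⊗[ℤ] M) :=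
    LinearEquiv.ofBijective (Λ.subtype.baseChange ℚ) ⟨hinj, hsurj⟩
  have hconj : e.conj ((f.restrict hΛ).baseChange ℚ) = f.baseChange ℚ := by
    apply LinearMap.ext
    intro y
    obtain ⟨x, rfl⟩ := e.surjective y
    rw [LinearEquiv.conj_apply_apply, LinearEquiv.symm_apply_apply]
    change (Λ.subtype.baseChange ℚ) (((f.restrict hΛ).baseChange ℚ) x) =
      (f.baseChange ℚ) ((Λ.subtype.baseChange ℚ) x)
    rw [← LinearMap.comp_apply, ← LinearMap.comp_apply, ← LinearMap.baseChange_comp,
      ← LinearMap.baseChange_comp]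
    rfl
  have h := LinearEquiv.charpoly_conj e ((f.restrict hΛ).baseChange ℚ)
  rw [hconj, LinearMap.charpoly_baseChange, LinearMap.charpoly_baseChange] at h
  exact (Polynomial.map_injective (algebraMap ℤ ℚ) (algebraMap ℤ ℚ).injective_int h).symm

end FiniteIndex

section RealLattice

variable {Λ₀ W ι : Type*} [Fintype ι] [DecidableEq ι] [AddCommGroup Λ₀] [Module.Free ℤ Λ₀]
  [Module.Finite ℤ Λ₀] [AddCommGroup W] [Module ℝ W]

/-- A lattice `j : Λ₀ → W` in a real vector space whose `ℤ`-basis is `ℝ`-linearly independent,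
spanning the subspace `H`; `P` an endomorphism of `W` inducing `f₀` on `Λ₀`.  Then the
characteristic polynomial of `P` on `H` is the one of `f₀`. -/
theorem charpoly_of_real_lattice (bΛ : Basis ι ℤ Λ₀) (j : Λ₀ →ₗ[ℤ] W)
    (hb : LinearIndependent ℝ (fun i => j (bΛ i)))
    (f₀ : Λ₀ →ₗ[ℤ] Λ₀) (P : W →ₗ[ℝ] W) (hP : ∀ x, P (j x) = j (f₀ x))
    (H : Submodule ℝ W) (hH : Submodule.span ℝ (Set.range fun i => j (bΛ i)) = H)
    [Module.Finite ℝ H] (hHP : H ≤ H.comap P) :
    (P.restrict hHP).charpoly = f₀.charpoly.map (Int.castRingHom ℝ) := by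
  let bH : Basis ι ℝ H := (Basis.span hb).map (LinearEquiv.ofEq _ _ hH)
  have hbH : ∀ i, ((bH i : H) : W) = j (bΛ i) := by
    intro i
    simp [bH, Basis.span_apply]
  have key : ∀ k, (P.restrict hHP) (bH k) =
      ∑ i, ((bΛ.repr (f₀ (bΛ k)) i : ℤ) : ℝ) • bH i := by
    intro k
    apply Subtype.ext
    rw [LinearMap.coe_restrict_apply, hbH, hP]
    conv_lhs => rw [← bΛ.sum_repr (f₀ (bΛ k))]
    rw [map_sum, Submodule.coe_sum]
    refine Finset.sum_congr rfl fun i _ => ?_
    rw [map_zsmul, Submodule.coe_smul, hbH, Int.cast_smul_eq_zsmul]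
  rw [← LinearMap.charpoly_toMatrix (P.restrict hHP) bH, ← LinearMap.charpoly_toMatrix f₀ bΛ,
    ← Matrix.charpoly_map]
  congr 1
  ext i k
  rw [LinearMap.toMatrix_apply, key, Matrix.map_apply, LinearMap.toMatrix_apply]
  simp [Finsupp.single_apply]

end RealLattice

end Fermat.Agent.S56.H614

end
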