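import Fermat.Agent.S56.H614.Red2

/-!
# S56 / W-BASE / EUL-RED, part 7 (helper614): `red_of : LemmaAStatement → RedStatement`

Modular Artin induction (`Euler.ind`) applied to `W ↦ φ (inflation of W)`; the value on
`k[Γ/B] ⊗ W` is computed by Lemma A, EQUIV (`phi_kerRep_matOp`) and `Euler.key`
(`phi_kerRep_eq_zero`).
-/

set_option autoImplicit false
set_option linter.unusedSectionVars false

open Polynomial

noncomputable section

namespace Fermat.Agent.S56.H614

open Fermat.Agent.S55.PT Fermat.Agent.S56.H419 Fermat.Agent.S56.Euler groupCohomology Module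

section

variable {k : Type} [Field k] {G : Type} [Group G] (U : Subgroup G) [U.Normal]

/-- the matrix of `χ(σ)⁻¹ • σ̄` has order dividing `n` if `σ̄ ^ n = 1` -/
lemma toMatrix_twist_pow (χ : G →* kˣ) (hχ : ∀ u ∈ U, χ u = 1) (σ : G)
    (W : FDRepData k (G ⧸ U)) {J : Type} [Fintype J] [DecidableEq J] (b : Basis J k W.V)
    (n : ℕ) (hσ : (σ : G ⧸ U) ^ n = 1) :
    (LinearMap.toMatrix b b ((((χ σ)⁻¹ : kˣ) : k) • W.ρ (σ : G ⧸ U))) ^ n = 1 := by
  have h1 : σ ^ n ∈ U := by
    rw [← QuotientGroup.eq_one_iff, QuotientGroup.mk_pow, hσ]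
  have h2 : (((χ σ)⁻¹ : kˣ) : k) ^ n = 1 := by
    rw [← Units.val_pow_eq_pow_val, inv_pow, ← map_pow, hχ _ h1]
    simp
  have h3 : ((((χ σ)⁻¹ : kˣ) : k) • W.ρ (σ : G ⧸ U)) ^ n = 1 := by
    rw [_root_.smul_pow, ← map_pow, hσ, map_one, h2, one_smul]
  have h4 := LinearMap.toMatrix_pow b ((((χ σ)⁻¹ : kˣ) : k) • W.ρ (σ : G ⧸ U)) n
  rw [h3] at h4
  rw [h4]
  exact LinearMap.toMatrix_one b

/-- inflation of a short exact sequence -/
def inflSES {A B C : FDRepData k (G ⧸ U)} (i : A.V →ₗ[k] B.V) (q : B.V →ₗ[k] C.V)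
    (hE : IsShortExact A B C i q) : SES (inflRep U A) (inflRep U B) (inflRep U C) where
  i := i
  π := q
  hi := fun g a => hE.equivar_i (g : G ⧸ U) a
  hπ := fun g b => hE.equivar_q (g : G ⧸ U) b
  inj := hE.inj
  surj := hE.surj
  exact := hE.exact

lemma inflRep_trivial (W : FDRepData k (G ⧸ U)) (u : G) (hu : u ∈ U) (w : inflRep U W) :
    (inflRep U W).ρ u w = w := by
  show W.ρ (u : G ⧸ U) w = w
  rw [(QuotientGroup.eq_one_iff u).2 hu, map_one]
  rfl

/-- deflation of a representation trivial on `U` -/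
def deflData (N : Rep.{0, 0, 0} k G) [Module.Finite k N] (hN : ∀ u ∈ U, ∀ n : N, N.ρ u n = n) :
    FDRepData k (G ⧸ U) where
  V := N
  ρ := QuotientGroup.lift U N.ρ (fun u hu => by
    rw [MonoidHom.mem_ker]
    apply LinearMap.ext
    intro n
    exact hN u hu n)

end

/-- **RED from Lemma A.** -/
theorem red_of (hA : LemmaAStatement) : RedStatement := by
  intro p _ G _ L c U _ _ χ hχ h1 h2 hadd hId N hNfin hN
  classical
  have : Finite (G ⧸ U) := Subgroup.finite_quotient_of_finiteIndex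
  -- the invariant
  let f : RepInv (ZMod p) (G ⧸ U) := fun W => phi L c (inflRep U W)
  have hf : IsAdditiveInv f := by
    intro A B C i q hE
    exact hadd _ _ _ (inflSES U i q hE) B.fin (fun u hu b => inflRep_trivial U B u hu b)
  -- vanishing on induced modules
  have hind : ∀ B : Subgroup (G ⧸ U), IsCyclic B → ¬ p ∣ Nat.card B →
      ∀ W : FDRepData (ZMod p) (G ⧸ U), f (permData B W) = 0 := by
    intro B hB hpB W
    obtain ⟨g, rfl⟩ := (Subgroup.isCyclic_iff_exists_zpowers_eq_top B).1 hB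
    obtain ⟨σ, rfl⟩ := QuotientGroup.mk_surjective g
    rw [Nat.card_zpowers] at hpB
    obtain ⟨e, he⟩ := hA (ZMod p) G U χ hχ σ W (Fin (finrank (ZMod p) W.V))
      (Module.finBasis (ZMod p) W.V)
    have hzero := phi_kerRep_eq_zero (p := p) (L := L) (c := c) (U := U) (M₀ := ofChar χ)
      h1 h2 hId
      (LinearMap.toMatrix (Module.finBasis (ZMod p) W.V) (Module.finBasis (ZMod p) W.V)
        ((((χ σ)⁻¹ : (ZMod p)ˣ) : ZMod p) • W.ρ (σ : G ⧸ U))) σ (orderOf (σ : G ⧸ U)) hpB
      (toMatrix_twist_pow U χ hχ σ W _ _ (pow_orderOf_eq_one _)) (pow_orderOf_eq_one _)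
    show phi L c (inflRep U (permData (Subgroup.zpowers (σ : G ⧸ U)) W)) = 0
    rw [← hzero]
    exact phi_eq_of_iso L c
      (A := inflRep U (permData (Subgroup.zpowers (σ : G ⧸ U)) W)) e
      (fun g a => Subtype.ext (he g a))
  have hall := ind p (G ⧸ U) f hf hind
  -- conclusion
  have : Module.Finite (ZMod p) N := hNfin
  have h3 := hall (deflData U N hN)
  show phi L c N = 0
  rw [← h3]
  exact phi_eq_of_iso L c (A := N) (B := inflRep U (deflData U N hN)) (LinearEquiv.refl _ _)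
    (fun g a => rfl)

end Fermat.Agent.S56.H614

end
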