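import Fermat.Agent.S56.H614.LinFunInst
import Fermat.Agent.S56.H419.H0Ind
import Fermat.Agent.S56.Euler.IndSpec

/-!
# S56 / W-BASE / EUL-RED (helper614): FROZEN statements

Tate's global Euler characteristic formula `φ := h⁰ − h¹ + h² + dim (·)^{c=-1} ≡ 0` is reduced,
by modular Artin induction (`Euler.ind`, `Euler.key`, both on main), to ONE arithmetic input:

* `CharpolyId L c X T` — the **equivariant Euler–Poincaré identity**
  `charpoly (T | H¹ X) = charpoly (T | H⁰ X) * charpoly (T | H² X) * charpoly (T | X^{c=-1})`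
  for `X = Ind_U μ` and `T = indR U μ σ` (right translation), `σ` of order prime to `p` mod `U`.

Statements:

* `LemmaAStatement` (pure algebra, projection formula): `k[Γ/B] ⊗ W ≅ ker (M ⊗ R_σ − 1)` inside
  `(Ind_U μ)^J`, `B = ⟨σ⟩ ≤ Γ = G/U`, `M` = matrix of `χ(σ)⁻¹ • σ` on `W`;
* `RedStatement`: `CharpolyId` for all `σ` + additivity of `φ` ⇒ `φ N = 0` for all `N` trivial
  on `U`.

Proved in `Fermat/Agent/S56/H614/`: EQUIV (`LinFun.kerEquiv`), `phi_kerRep_matOp`.
-/

set_option autoImplicit false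

open Polynomial

noncomputable section

namespace Fermat.Agent.S56.H614

open Fermat.Agent.S55.PT Fermat.Agent.S56.H419 Fermat.Agent.S56.Euler groupCohomology Module

variable {k : Type} [Field k] {G : Type} [Group G]

/-- Inflation of a representation of `G ⧸ U` to `G`. -/
def inflRep (U : Subgroup G) [U.Normal] (W : FDRepData k (G ⧸ U)) : Rep.{0, 0, 0} k G :=
  Rep.of (W.ρ.comp (QuotientGroup.mk' U))

lemma inflRep_ρ_apply (U : Subgroup G) [U.Normal] (W : FDRepData k (G ⧸ U)) (g : G) (w : W.V) :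
    (inflRep U W).ρ g w = W.ρ (g : G ⧸ U) w := rfl

/-- **The equivariant Euler–Poincaré identity** for an equivariant endomorphism `T` of `X`:
`charpoly (H¹ T) = charpoly (H⁰ T) * charpoly (H² T) * charpoly (T | X^{c=-1})`. -/
def CharpolyId (L : LevelSys G) (c : G) (X : Rep.{0, 0, 0} k G) (T : X →ₗ[k] X)
    (hT : IsEquivariant T) : Prop :=
  ∀ (_ : Module.Finite k X) (_ : Module.Finite k (L.H1 X)) (_ : Module.Finite k (L.H2 X)),
    LinearMap.charpoly (pushH1 T hT L) =
      LinearMap.charpoly (pushH0 T hT) * LinearMap.charpoly (pushH2 T hT L) *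
        LinearMap.charpoly (minusMap c T hT)

/-- **Lemma A (projection formula).**  `Γ = G ⧸ U`, `σ : G`, `B = ⟨σ̄⟩ ≤ Γ`, `W` a representation
of `Γ`, `χ` a character of `G` trivial on `U`, `b` a basis of `W`, `M` the matrix of
`χ(σ)⁻¹ • σ̄` on `W`: there is a `G`-equivariant linear equivalence
`(Γ ⧸ B →₀ W) ≃ ker (M ⊗ R_σ − 1) ⊆ (Ind_U χ)^J`
(explicitly `a ↦ (j ↦ x ↦ b.coord j (χ(x) • x⁻¹ • a (x B)))`). -/
def LemmaAStatement : Prop :=
  ∀ (k : Type) [Field k] (G : Type) [Group G] (U : Subgroup G) [U.Normal] [U.FiniteIndex]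
    (χ : G →* kˣ), (∀ u ∈ U, χ u = 1) →
    ∀ (σ : G) (W : FDRepData k (G ⧸ U)) (J : Type) [Fintype J] [DecidableEq J]
      (b : Basis J k W.V),
      ∃ e : (((G ⧸ U) ⧸ Subgroup.zpowers (σ : G ⧸ U)) →₀ W.V) ≃ₗ[k]
          ↥(LinearMap.ker (matOp
            (LinearMap.toMatrix b b ((((χ σ)⁻¹ : kˣ) : k) • W.ρ (σ : G ⧸ U)))
            (indR U (ofChar χ) σ) - 1)),
        ∀ (g : G) (a : ((G ⧸ U) ⧸ Subgroup.zpowers (σ : G ⧸ U)) →₀ W.V),
          ((e ((permData (Subgroup.zpowers (σ : G ⧸ U)) W).ρ (g : G ⧸ U) a) :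
              ↥(LinearMap.ker (matOp
                (LinearMap.toMatrix b b ((((χ σ)⁻¹ : kˣ) : k) • W.ρ (σ : G ⧸ U)))
                (indR U (ofChar χ) σ) - 1))) : J → ((G ⧸ U) →₀ k)) =
            (piRep J (indRep U (ofChar χ))).ρ g
              ((e a : ↥(LinearMap.ker (matOp
                (LinearMap.toMatrix b b ((((χ σ)⁻¹ : kˣ) : k) • W.ρ (σ : G ⧸ U)))
                (indR U (ofChar χ) σ) - 1))) : J → ((G ⧸ U) →₀ k))

/-- **RED.**  Modular Artin induction reduces the vanishing of `φ = χ + dim (·)^{c=-1}` on all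
finite-dimensional representations trivial on `U` to the equivariant Euler–Poincaré identity for
`(Ind_U χ, R_σ)`, `σ` of order prime to `p` modulo `U`. -/
def RedStatement : Prop :=
  ∀ (p : ℕ) [Fact p.Prime] (G : Type) [Group G] (L : LevelSys G) (c : G)
    (U : Subgroup G) [U.Normal] [U.FiniteIndex] (χ : G →* (ZMod p)ˣ), (∀ u ∈ U, χ u = 1) →
    Module.Finite (ZMod p) (L.H1 (indRep U (ofChar χ))) →
    Module.Finite (ZMod p) (L.H2 (indRep U (ofChar χ))) →
    (∀ (A B C : Rep.{0, 0, 0} (ZMod p) G) (_ : SES A B C), FiniteDimensional (ZMod p) B →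
      (∀ u ∈ U, ∀ b : B, B.ρ u b = b) → phi L c B = phi L c A + phi L c C) →
    (∀ σ : G, ¬ p ∣ orderOf (σ : G ⧸ U) →
      CharpolyId L c (indRep U (ofChar χ)) (indR U (ofChar χ) σ)
        (indR_equivariant U (ofChar χ) σ)) →
    ∀ N : Rep.{0, 0, 0} (ZMod p) G, FiniteDimensional (ZMod p) N →
      (∀ u ∈ U, ∀ n : N, N.ρ u n = n) → phi L c N = 0

end Fermat.Agent.S56.H614

end
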