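import Mathlib
import Fermat.Agent.S55.G.SpecUnits
import Fermat.Agent.S55.G.Log101
import Fermat.Agent.S55.G.OrdH707
import Fermat.Agent.S55.G.StabH707
import Fermat.Agent.S56.H614.Lattice

/-!
# S56 / W-BASE / W3-UNITS (helper614): the characteristic polynomial of a Galois element on the
`T`-units modulo `p`

`L/K` a Galois extension of number fields, `T` a finite set of primes of `K`, `τ ∈ Gal(L/K)`,
`k` any field.  With `E = 𝒪_{L,T}^×` (the `T`-units of `L`, `sUnitsSub`), `μ` the group of roots
of unity (`torsSub`):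

  `charpoly (k ⊗ τ|_E) * (X - 1) = charpoly (k ⊗ τ|_μ) * permCharpoly (infinite places)
                                        * permCharpoly (primes above T)`       (`sUnits_charpoly`)

Inputs: the landed S55 layer G blocks `Log101` (equivariant logarithmic lattice of the units) and
`OrdH707` (valuation map on the `T`-units).
-/

set_option autoImplicit false
set_option linter.unusedSectionVars false
set_option linter.style.haveILetI false

noncomputable section

namespace Fermat.Agent.S56.H614

open Fermat.Agent.S55.G NumberField IsDedekindDomain Polynomial Module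

open scoped TensorProduct

universe u v

variable (K : Type u) (L : Type v) [Field K] [Field L] [NumberField K] [NumberField L]
  [Algebra K L] [IsGalois K L] (T : Finset (HeightOneSpectrum (𝓞 K)))

/-- The action of `τ` on `Lˣ` (additively), as a `ℤ`-linear map. -/
def unitsLin (τ : L ≃ₐ[K] L) : Additive Lˣ →ₗ[ℤ] Additive Lˣ :=
  (unitsHom K L τ).toIntLinearMap

/-- The `T`-units of `L`, as a `ℤ`-submodule of `Lˣ`. -/
def sUnitsSub : Submodule ℤ (Additive Lˣ) := AddSubgroup.toIntSubmodule (sUnits K L T)

/-- The units of `𝒪_L`, as a `ℤ`-submodule of `Lˣ`. -/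
def intUnitsSub : Submodule ℤ (Additive Lˣ) := AddSubgroup.toIntSubmodule (intUnits L)

/-- The roots of unity of `L` (units killed by the logarithmic map), as a `ℤ`-submodule. -/
def torsSub : Submodule ℤ (Additive Lˣ) :=
  AddSubgroup.toIntSubmodule ((Log101.phi L).ker ⊓ intUnits L)

lemma mem_sUnitsSub (x : Additive Lˣ) : x ∈ sUnitsSub K L T ↔ x ∈ sUnits K L T := Iff.rfl

lemma mem_intUnitsSub (x : Additive Lˣ) : x ∈ intUnitsSub L ↔ x ∈ intUnits L := Iff.rfl

lemma mem_torsSub (x : Additive Lˣ) :
    x ∈ torsSub L ↔ Log101.phi L x = 0 ∧ x ∈ intUnits L := Iff.rfl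

lemma intUnits_eq : intUnits L = (OrdH707.ordHom K L T).ker ⊓ sUnits K L T :=
  (OrdH707.ker_inf_sUnits K L T).symm

lemma intUnitsSub_le_sUnitsSub : intUnitsSub L ≤ sUnitsSub K L T := by
  intro x hx
  rw [mem_intUnitsSub, intUnits_eq K L T] at hx
  exact hx.2

lemma torsSub_le_intUnitsSub : torsSub L ≤ intUnitsSub L := fun _ hx => hx.2

lemma sUnitsSub_stable (τ : L ≃ₐ[K] L) :
    sUnitsSub K L T ≤ (sUnitsSub K L T).comap (unitsLin K L τ) :=
  fun x hx => StabH707.sUnitsStable K L T τ x hx

lemma intUnitsSub_stable (τ : L ≃ₐ[K] L) :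
    intUnitsSub L ≤ (intUnitsSub L).comap (unitsLin K L τ) := by
  intro x hx
  rw [Submodule.mem_comap, mem_intUnitsSub, intUnits_eq K L (∅ : Finset _)]
  rw [mem_intUnitsSub, intUnits_eq K L (∅ : Finset _)] at hx
  refine ⟨?_, StabH707.sUnitsStable K L ∅ τ x hx.2⟩
  have h := OrdH707.ordHom_equivariant K L ∅ τ x
  have hx1 : OrdH707.ordHom K L ∅ x = 0 := hx.1
  change OrdH707.ordHom K L ∅ (unitsHom K L τ x) = 0
  rw [h, hx1, map_zero]

lemma torsSub_stable (τ : L ≃ₐ[K] L) :
    torsSub L ≤ (torsSub L).comap (unitsLin K L τ) := by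
  intro x hx
  rw [Submodule.mem_comap, mem_torsSub]
  rw [mem_torsSub] at hx
  refine ⟨?_, intUnitsSub_stable K L τ hx.2⟩
  change Log101.phi L (unitsHom K L τ x) = 0
  rw [Log101.phi_equivariant, hx.1, map_zero]

/-- `τ` on the `T`-units. -/
def sUnitsEnd (τ : L ≃ₐ[K] L) : ↥(sUnitsSub K L T) →ₗ[ℤ] ↥(sUnitsSub K L T) :=
  (unitsLin K L τ).restrict (sUnitsSub_stable K L T τ)

/-- `τ` on the units. -/
def intUnitsEnd (τ : L ≃ₐ[K] L) : ↥(intUnitsSub L) →ₗ[ℤ] ↥(intUnitsSub L) :=
  (unitsLin K L τ).restrict (intUnitsSub_stable K L τ)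

/-- `τ` on the roots of unity. -/
def torsEnd (τ : L ≃ₐ[K] L) : ↥(torsSub L) →ₗ[ℤ] ↥(torsSub L) :=
  (unitsLin K L τ).restrict (torsSub_stable K L τ)

/-! ### The logarithmic lattice -/

/-- The logarithmic lattice of the units inside `ℝ^{infinite places}`. -/
def logLattice : Submodule ℤ (InfinitePlace L → ℝ) :=
  Submodule.span ℤ (Set.range (Log101.bFam L))

lemma bFam_linearIndependent_int : LinearIndependent ℤ (Log101.bFam L) :=
  (Log101.bFam_linearIndependent L).restrict_scalars (by
    intro a b h
    simpa using h)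

/-- The `ℤ`-basis of the logarithmic lattice. -/
def logLatticeBasis : Basis (Fin (Units.rank L)) ℤ ↥(logLattice L) :=
  Basis.span (bFam_linearIndependent_int L)

lemma logLatticeBasis_coe (i : Fin (Units.rank L)) :
    ((logLatticeBasis L i : ↥(logLattice L)) : InfinitePlace L → ℝ) = Log101.bFam L i :=
  congrArg Subtype.val (Basis.span_apply (bFam_linearIndependent_int L) i)

instance logLattice_free : Module.Free ℤ ↥(logLattice L) :=
  Module.Free.of_basis (logLatticeBasis L)

instance logLattice_finite : Module.Finite ℤ ↥(logLattice L) :=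
  Module.Finite.of_basis (logLatticeBasis L)

/-- The logarithmic map as a `ℤ`-linear map. -/
def phiLin : Additive Lˣ →ₗ[ℤ] (InfinitePlace L → ℝ) := (Log101.phi L).toIntLinearMap

lemma mem_logLattice_iff (y : InfinitePlace L → ℝ) :
    y ∈ logLattice L ↔ ∃ x ∈ intUnits L, Log101.phi L x = y := by
  have h := Log101.map_phi_intUnits L
  have : y ∈ (intUnits L).map (Log101.phi L) ↔ y ∈ logLattice L := by
    rw [h]; rfl
  rw [← this]
  rfl

lemma phiLin_mem_logLattice (x : ↥(intUnitsSub L)) : phiLin L (x : Additive Lˣ) ∈ logLattice L :=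
  (mem_logLattice_iff L _).mpr ⟨x, x.2, rfl⟩

/-- The logarithmic map from the units onto the logarithmic lattice. -/
def logMap : ↥(intUnitsSub L) →ₗ[ℤ] ↥(logLattice L) :=
  ((phiLin L).domRestrict (intUnitsSub L)).codRestrict (logLattice L) (phiLin_mem_logLattice L)

lemma logMap_coe (x : ↥(intUnitsSub L)) :
    ((logMap L x : ↥(logLattice L)) : InfinitePlace L → ℝ) = Log101.phi L (x : Additive Lˣ) := rfl

lemma logMap_surjective : Function.Surjective (logMap L) := by
  rintro ⟨y, hy⟩
  obtain ⟨x, hx, rfl⟩ := (mem_logLattice_iff L y).mp hy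
  exact ⟨⟨x, hx⟩, Subtype.ext rfl⟩

lemma range_torsIncl :
    LinearMap.range (Submodule.inclusion (torsSub_le_intUnitsSub L)) =
      LinearMap.ker (logMap L) := by
  ext x
  rw [Submodule.range_inclusion, Submodule.mem_comap, LinearMap.mem_ker]
  constructor
  · intro hx
    exact Subtype.ext hx.1
  · intro hx
    exact ⟨congrArg Subtype.val hx, x.2⟩

instance torsSub_finite : Module.Finite ℤ ↥(torsSub L) := by
  haveI : Finite ↥(torsSub L) := Log101.finite_ker_inf L
  exact Module.Finite.of_finite

instance intUnitsSub_finite : Module.Finite ℤ ↥(intUnitsSub L) :=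
  finite_of_exact (Submodule.inclusion (torsSub_le_intUnitsSub L)) (logMap L)
    (logMap_surjective L) (range_torsIncl L)

/-- The permutation action of `τ` on `ℝ^{infinite places}`. -/
def permR (τ : L ≃ₐ[K] L) : (InfinitePlace L → ℝ) →ₗ[ℝ] (InfinitePlace L → ℝ) :=
  LinearMap.funLeft ℝ ℝ (fun w : InfinitePlace L => τ⁻¹ • w)

lemma phi_unitsLin (τ : L ≃ₐ[K] L) (x : Additive Lˣ) :
    Log101.phi L (unitsLin K L τ x) = permR K L τ (Log101.phi L x) :=
  Log101.phi_equivariant K L τ x

lemma logLattice_stable (τ : L ≃ₐ[K] L) :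
    logLattice L ≤ (logLattice L).comap ((permR K L τ).restrictScalars ℤ) := by
  intro y hy
  obtain ⟨x, hx, rfl⟩ := (mem_logLattice_iff L y).mp hy
  rw [Submodule.mem_comap, LinearMap.restrictScalars_apply, ← phi_unitsLin]
  exact (mem_logLattice_iff L _).mpr ⟨_, intUnitsSub_stable K L τ hx, rfl⟩

/-- `τ` on the logarithmic lattice. -/
def logLatticeEnd (τ : L ≃ₐ[K] L) : ↥(logLattice L) →ₗ[ℤ] ↥(logLattice L) :=
  ((permR K L τ).restrictScalars ℤ).restrict (logLattice_stable K L τ)

/-- Step 2: units = roots of unity + logarithmic lattice. -/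
theorem intUnits_charpoly (k : Type*) [Field k] (τ : L ≃ₐ[K] L) :
    ((intUnitsEnd K L τ).baseChange k).charpoly =
      ((torsEnd K L τ).baseChange k).charpoly * ((logLatticeEnd K L τ).baseChange k).charpoly := by
  refine charpoly_baseChange_of_exact' k (Submodule.inclusion (torsSub_le_intUnitsSub L))
    (Submodule.inclusion_injective _) (logMap L) (logMap_surjective L) (range_torsIncl L)
    (torsEnd K L τ) (intUnitsEnd K L τ) (logLatticeEnd K L τ) ?_ ?_
  · apply LinearMap.ext
    intro x
    rfl
  · apply LinearMap.ext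
    intro x
    apply Subtype.ext
    exact phi_unitsLin K L τ (x : Additive Lˣ)

/-! ### Step 3: the logarithmic lattice versus the permutation lattice of the infinite places -/

/-- The sum of the coordinates. -/
def sumR : (InfinitePlace L → ℝ) →ₗ[ℝ] ℝ := ∑ w : InfinitePlace L, LinearMap.proj w

lemma sumR_apply (a : InfinitePlace L → ℝ) : sumR L a = ∑ w, a w := by
  simp [sumR, LinearMap.sum_apply]

lemma traceZeroR_eq_ker : traceZeroR L = LinearMap.ker (sumR L) := rfl

lemma sumR_permR (τ : L ≃ₐ[K] L) (a : InfinitePlace L → ℝ) :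
    sumR L (permR K L τ a) = sumR L a := by
  rw [sumR_apply, sumR_apply]
  exact Equiv.sum_comp (MulAction.toPerm τ⁻¹ : Equiv.Perm (InfinitePlace L)) a

lemma sumR_surjective : Function.Surjective (sumR L) := by
  classical
  intro c
  obtain ⟨w₀⟩ : Nonempty (InfinitePlace L) := inferInstance
  refine ⟨Pi.single w₀ c, ?_⟩
  rw [sumR_apply, Finset.sum_pi_single']
  simp

lemma traceZeroR_stable (τ : L ≃ₐ[K] L) :
    traceZeroR L ≤ (traceZeroR L).comap (permR K L τ) := by
  intro a ha
  rw [traceZeroR_eq_ker, LinearMap.mem_ker] at ha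
  rw [Submodule.mem_comap, traceZeroR_eq_ker, LinearMap.mem_ker, sumR_permR, ha]

/-- The characteristic polynomial of `τ` on the trace-zero hyperplane. -/
theorem traceZeroR_charpoly (τ : L ≃ₐ[K] L) :
    ((permR K L τ).restrict (traceZeroR_stable K L τ)).charpoly * (X - 1) =
      permCharpoly ℝ (fun w : InfinitePlace L => τ⁻¹ • w) := by
  have h := charpoly_of_exact (k := ℝ) (traceZeroR L).subtype (Submodule.injective_subtype _)
    (sumR L) (sumR_surjective L)
    (by rw [Submodule.range_subtype, traceZeroR_eq_ker])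
    ((permR K L τ).restrict (traceZeroR_stable K L τ)) (permR K L τ) LinearMap.id
    (by apply LinearMap.ext; intro x; rfl)
    (by apply LinearMap.ext; intro x; exact sumR_permR K L τ x)
  have h1 : (LinearMap.id : ℝ →ₗ[ℝ] ℝ).charpoly = X - 1 := by
    have := LinearMap.charpoly_one (R := ℝ) (M := ℝ)
    rw [Module.finrank_self, pow_one] at this
    exact this
  rw [h1] at h
  rw [← h]
  rfl

/-- Step 3: the characteristic polynomial of `τ` on the logarithmic lattice. -/
theorem logLattice_charpoly (τ : L ≃ₐ[K] L) :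
    (logLatticeEnd K L τ).charpoly * (X - 1) =
      permCharpoly ℤ (fun w : InfinitePlace L => τ⁻¹ • w) := by
  classical
  have hfun : (fun i => (logLattice L).subtype (logLatticeBasis L i)) = Log101.bFam L :=
    funext (logLatticeBasis_coe L)
  have h := charpoly_of_real_lattice (logLatticeBasis L) (logLattice L).subtype
    (by rw [hfun]; exact Log101.bFam_linearIndependent L)
    (logLatticeEnd K L τ) (permR K L τ) (fun x => rfl) (traceZeroR L)
    (by rw [hfun]; exact Log101.span_real_bFam L) (traceZeroR_stable K L τ)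
  have h2 := traceZeroR_charpoly K L τ
  rw [h, ← permCharpoly_map ℤ (Int.castRingHom ℝ)] at h2
  apply Polynomial.map_injective (Int.castRingHom ℝ) Int.cast_injective
  rw [Polynomial.map_mul, Polynomial.map_sub, Polynomial.map_X, Polynomial.map_one]
  exact h2

/-! ### Steps 1 and 4: the valuation lattice of the `T`-units -/

instance primesAbove_finite : Finite ↥(primesAbove K L T) :=
  (OrdH707.finite_primesAbove K L T).to_subtype

/-- The permutation `w ↦ τ⁻¹ w` of the primes of `L` above `T`. -/
def primePerm (τ : L ≃ₐ[K] L) : ↥(primesAbove K L T) → ↥(primesAbove K L T) :=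
  fun w => ⟨OrdH707.smulH K L τ⁻¹ w.1, OrdH707.smulH_mem K L T τ⁻¹ w.2⟩

/-- The valuation map as a `ℤ`-linear map. -/
def ordLin : Additive Lˣ →ₗ[ℤ] (↥(primesAbove K L T) → ℤ) :=
  (OrdH707.ordHom K L T).toIntLinearMap

lemma ordLin_unitsLin (τ : L ≃ₐ[K] L) (x : Additive Lˣ) :
    ordLin K L T (unitsLin K L τ x) =
      LinearMap.funLeft ℤ ℤ (primePerm K L T τ) (ordLin K L T x) :=
  OrdH707.ordHom_equivariant K L T τ x

/-- The valuation lattice: the image of the `T`-units in `ℤ^{primes above T}`. -/
def ordLattice : Submodule ℤ (↥(primesAbove K L T) → ℤ) :=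
  (sUnitsSub K L T).map (ordLin K L T)

/-- The valuation map from the `T`-units onto the valuation lattice. -/
def ordMap : ↥(sUnitsSub K L T) →ₗ[ℤ] ↥(ordLattice K L T) :=
  (ordLin K L T).submoduleMap (sUnitsSub K L T)

lemma ordMap_coe (x : ↥(sUnitsSub K L T)) :
    ((ordMap K L T x : ↥(ordLattice K L T)) : ↥(primesAbove K L T) → ℤ) =
      OrdH707.ordHom K L T (x : Additive Lˣ) := rfl

lemma ordMap_surjective : Function.Surjective (ordMap K L T) :=
  LinearMap.submoduleMap_surjective _ _

lemma range_intUnitsIncl :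
    LinearMap.range (Submodule.inclusion (intUnitsSub_le_sUnitsSub K L T)) =
      LinearMap.ker (ordMap K L T) := by
  ext x
  rw [Submodule.range_inclusion, Submodule.mem_comap, LinearMap.mem_ker, mem_intUnitsSub,
    intUnits_eq K L T]
  constructor
  · intro hx
    exact Subtype.ext hx.1
  · intro hx
    exact ⟨congrArg Subtype.val hx, x.2⟩

instance sUnitsSub_finite : Module.Finite ℤ ↥(sUnitsSub K L T) :=
  finite_of_exact (Submodule.inclusion (intUnitsSub_le_sUnitsSub K L T)) (ordMap K L T)
    (ordMap_surjective K L T) (range_intUnitsIncl K L T)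

lemma ordLattice_stable (τ : L ≃ₐ[K] L) :
    ordLattice K L T ≤ (ordLattice K L T).comap (LinearMap.funLeft ℤ ℤ (primePerm K L T τ)) := by
  rintro y ⟨x, hx, rfl⟩
  rw [Submodule.mem_comap, ← ordLin_unitsLin]
  exact ⟨_, sUnitsSub_stable K L T τ hx, rfl⟩

/-- `τ` on the valuation lattice. -/
def ordLatticeEnd (τ : L ≃ₐ[K] L) : ↥(ordLattice K L T) →ₗ[ℤ] ↥(ordLattice K L T) :=
  (LinearMap.funLeft ℤ ℤ (primePerm K L T τ)).restrict (ordLattice_stable K L T τ)

/-- Step 1: `T`-units = units + valuation lattice. -/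
theorem sUnits_charpoly_step (k : Type*) [Field k] (τ : L ≃ₐ[K] L) :
    ((sUnitsEnd K L T τ).baseChange k).charpoly =
      ((intUnitsEnd K L τ).baseChange k).charpoly *
        ((ordLatticeEnd K L T τ).baseChange k).charpoly := by
  refine charpoly_baseChange_of_exact' k (Submodule.inclusion (intUnitsSub_le_sUnitsSub K L T))
    (Submodule.inclusion_injective _) (ordMap K L T) (ordMap_surjective K L T)
    (range_intUnitsIncl K L T)
    (intUnitsEnd K L τ) (sUnitsEnd K L T τ) (ordLatticeEnd K L T τ) ?_ ?_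
  · apply LinearMap.ext
    intro x
    rfl
  · apply LinearMap.ext
    intro x
    apply Subtype.ext
    exact ordLin_unitsLin K L T τ (x : Additive Lˣ)

/-- Step 4: the characteristic polynomial of `τ` on the valuation lattice. -/
theorem ordLattice_charpoly (τ : L ≃ₐ[K] L) :
    (ordLatticeEnd K L T τ).charpoly = permCharpoly ℤ (primePerm K L T τ) := by
  have hidx := OrdH707.index_map_ordHom K L T
  refine charpoly_restrict_of_smul_mem (LinearMap.funLeft ℤ ℤ (primePerm K L T τ))
    (ordLattice K L T) (ordLattice_stable K L T τ)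
    (((sUnits K L T).map (OrdH707.ordHom K L T)).index : ℤ) (by exact_mod_cast hidx) ?_
  intro x
  have h := AddSubgroup.nsmul_index_mem ((sUnits K L T).map (OrdH707.ordHom K L T)) x
  rw [natCast_zsmul]
  exact h

/-- **The characteristic polynomial of a Galois element on the `T`-units modulo `p`** (and over
any field `k`): with `E` the `T`-units of `L` and `μ` the roots of unity of `L`,
`charpoly (k ⊗ τ|_E) * (X - 1) = charpoly (k ⊗ τ|_μ) * permCharpoly(infinite places)
  * permCharpoly(primes above T)`. -/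
theorem sUnits_charpoly (k : Type*) [Field k] (τ : L ≃ₐ[K] L) :
    ((sUnitsEnd K L T τ).baseChange k).charpoly * (X - 1) =
      ((torsEnd K L τ).baseChange k).charpoly *
        permCharpoly k (fun w : InfinitePlace L => τ⁻¹ • w) *
        permCharpoly k (primePerm K L T τ) := by
  rw [sUnits_charpoly_step, intUnits_charpoly, LinearMap.charpoly_baseChange
    (logLatticeEnd K L τ), LinearMap.charpoly_baseChange (ordLatticeEnd K L T τ),
    ordLattice_charpoly, permCharpoly_map, ← permCharpoly_map ℤ (algebraMap ℤ k)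
      (fun w : InfinitePlace L => τ⁻¹ • w), ← logLattice_charpoly K L τ]
  rw [Polynomial.map_mul, Polynomial.map_sub, Polynomial.map_X, Polynomial.map_one]
  ring

/-- The units version (`T = ∅` is not needed): `charpoly (k ⊗ τ|_U) * (X - 1) =
charpoly (k ⊗ τ|_μ) * permCharpoly(infinite places)`. -/
theorem intUnits_charpoly' (k : Type*) [Field k] (τ : L ≃ₐ[K] L) :
    ((intUnitsEnd K L τ).baseChange k).charpoly * (X - 1) =
      ((torsEnd K L τ).baseChange k).charpoly *
        permCharpoly k (fun w : InfinitePlace L => τ⁻¹ • w) := by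
  rw [intUnits_charpoly, LinearMap.charpoly_baseChange (logLatticeEnd K L τ),
    ← permCharpoly_map ℤ (algebraMap ℤ k) (fun w : InfinitePlace L => τ⁻¹ • w),
    ← logLattice_charpoly K L τ]
  rw [Polynomial.map_mul, Polynomial.map_sub, Polynomial.map_X, Polynomial.map_one]
  ring

end Fermat.Agent.S56.H614

end
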