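import Mathlib

/-!
# S56 / W-BASE / EUL-RED, part 1 (helper614): averaging over an operator of finite order

Pure linear algebra (Mathlib only).  `k` a field, `S` an endomorphism with `S ^ n = 1`, `n ≠ 0`
in `k`:

* `avgOp S n = n⁻¹ • ∑_{j < n} S ^ j` is a projector onto `ker (S - 1)` (`range_avgOp`);
* `finrank_ker_sub_one_of_exact`: `dim ker (S - 1)` is additive on short exact sequences;
* `matOp M T` on `J → V`: `(matOp M T z) i = ∑ j, M i j • T (z j)` (the operator `M ⊗ T` on
  `k^J ⊗ V`), `matOp_mul`, `matOp_pow`.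
-/

set_option autoImplicit false

noncomputable section

namespace Fermat.Agent.S56.H614

open Module

section Avg

variable {k : Type} [Field k] {V : Type} [AddCommGroup V] [Module k V]

/-- `n⁻¹ • ∑_{j < n} S ^ j`. -/
def avgOp (S : V →ₗ[k] V) (n : ℕ) : V →ₗ[k] V :=
  ((n : k)⁻¹) • ∑ j ∈ Finset.range n, S ^ j

theorem sum_pow_mul_eq (S : V →ₗ[k] V) (n : ℕ) (hS : S ^ n = 1) :
    S * ∑ j ∈ Finset.range n, S ^ j = ∑ j ∈ Finset.range n, S ^ j := by
  rw [Finset.mul_sum]
  have h1 : ∑ j ∈ Finset.range n, S * S ^ j = ∑ j ∈ Finset.range n, S ^ (j + 1) :=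
    Finset.sum_congr rfl fun j _ => (pow_succ' S j).symm
  rw [h1]
  cases n with
  | zero => simp
  | succ m =>
    rw [Finset.sum_range_succ, hS, Finset.sum_range_succ' (fun j => S ^ j) m, pow_zero]

theorem mul_avgOp (S : V →ₗ[k] V) (n : ℕ) (hS : S ^ n = 1) : S * avgOp S n = avgOp S n := by
  unfold avgOp
  rw [mul_smul_comm, sum_pow_mul_eq S n hS]

theorem avgOp_apply_of_fixed (S : V →ₗ[k] V) (n : ℕ) (hn : (n : k) ≠ 0) {x : V} (hx : S x = x) :
    avgOp S n x = x := by
  have h1 : ∀ j : ℕ, (S ^ j) x = x := by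
    intro j
    induction j with
    | zero => simp
    | succ j ih => rw [pow_succ, Module.End.mul_apply, hx, ih]
  unfold avgOp
  rw [LinearMap.smul_apply, LinearMap.sum_apply, Finset.sum_congr rfl fun j _ => h1 j,
    Finset.sum_const, Finset.card_range, ← Nat.cast_smul_eq_nsmul k, smul_smul,
    inv_mul_cancel₀ hn, one_smul]

theorem range_avgOp (S : V →ₗ[k] V) (n : ℕ) (hn : (n : k) ≠ 0) (hS : S ^ n = 1) :
    LinearMap.range (avgOp S n) = LinearMap.ker (S - 1) := by
  apply le_antisymm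
  · rintro _ ⟨x, rfl⟩
    rw [LinearMap.mem_ker, LinearMap.sub_apply, Module.End.one_apply, sub_eq_zero,
      ← Module.End.mul_apply, mul_avgOp S n hS]
  · intro x hx
    rw [LinearMap.mem_ker, LinearMap.sub_apply, Module.End.one_apply, sub_eq_zero] at hx
    exact ⟨x, avgOp_apply_of_fixed S n hn hx⟩

theorem avgOp_mem_ker (S : V →ₗ[k] V) (n : ℕ) (hS : S ^ n = 1) (x : V) :
    avgOp S n x ∈ LinearMap.ker (S - 1) := by
  rw [LinearMap.mem_ker, LinearMap.sub_apply, Module.End.one_apply, sub_eq_zero,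
    ← Module.End.mul_apply, mul_avgOp S n hS]

/-- intertwining: if `q ∘ S = S' ∘ q` then `q ∘ avgOp S = avgOp S' ∘ q`. -/
theorem avgOp_comm {W : Type} [AddCommGroup W] [Module k W] (S : V →ₗ[k] V) (S' : W →ₗ[k] W)
    (q : V →ₗ[k] W) (h : ∀ x, q (S x) = S' (q x)) (n : ℕ) (x : V) :
    q (avgOp S n x) = avgOp S' n (q x) := by
  have h1 : ∀ j : ℕ, ∀ x, q ((S ^ j) x) = (S' ^ j) (q x) := by
    intro j
    induction j with
    | zero => intro x; simp
    | succ j ih =>
      intro x
      rw [pow_succ, Module.End.mul_apply, ih, h, pow_succ, Module.End.mul_apply]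
  unfold avgOp
  simp only [LinearMap.smul_apply, LinearMap.sum_apply, map_smul, map_sum, h1]

end Avg

section Exact

variable {k : Type} [Field k] {V₁ V₂ V₃ : Type} [AddCommGroup V₁] [Module k V₁]
  [AddCommGroup V₂] [Module k V₂] [AddCommGroup V₃] [Module k V₃]

/-- **Invariants of an operator of order prime to the characteristic are exact.** -/
theorem finrank_ker_sub_one_of_exact [FiniteDimensional k V₂]
    (i : V₁ →ₗ[k] V₂) (q : V₂ →ₗ[k] V₃) (hi : Function.Injective i)
    (hq : Function.Surjective q) (hex : LinearMap.range i = LinearMap.ker q)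
    (S₁ : V₁ →ₗ[k] V₁) (S₂ : V₂ →ₗ[k] V₂) (S₃ : V₃ →ₗ[k] V₃)
    (h₁ : ∀ x, i (S₁ x) = S₂ (i x)) (h₂ : ∀ x, q (S₂ x) = S₃ (q x))
    (n : ℕ) (hn : (n : k) ≠ 0) (hS : S₂ ^ n = 1) :
    finrank k (LinearMap.ker (S₂ - 1)) =
      finrank k (LinearMap.ker (S₁ - 1)) + finrank k (LinearMap.ker (S₃ - 1)) := by
  have hS₃ : S₃ ^ n = 1 := by
    apply LinearMap.ext
    intro y
    obtain ⟨x, rfl⟩ := hq y
    have h1 : ∀ j : ℕ, ∀ x, q ((S₂ ^ j) x) = (S₃ ^ j) (q x) := by
      intro j
      induction j with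
      | zero => intro x; simp
      | succ j ih =>
        intro x
        rw [pow_succ, Module.End.mul_apply, ih, h₂, pow_succ, Module.End.mul_apply]
    rw [← h1, hS]
    rfl
  -- the maps on invariants
  let i' : ↥(LinearMap.ker (S₁ - 1)) →ₗ[k] ↥(LinearMap.ker (S₂ - 1)) :=
    (i ∘ₗ (LinearMap.ker (S₁ - 1)).subtype).codRestrict _ (fun x => by
      have hx := x.2
      rw [LinearMap.mem_ker, LinearMap.sub_apply, Module.End.one_apply, sub_eq_zero] at hx
      rw [LinearMap.mem_ker, LinearMap.sub_apply, Module.End.one_apply, sub_eq_zero,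
        LinearMap.comp_apply, Submodule.subtype_apply, ← h₁, hx])
  let q' : ↥(LinearMap.ker (S₂ - 1)) →ₗ[k] ↥(LinearMap.ker (S₃ - 1)) :=
    (q ∘ₗ (LinearMap.ker (S₂ - 1)).subtype).codRestrict _ (fun x => by
      have hx := x.2
      rw [LinearMap.mem_ker, LinearMap.sub_apply, Module.End.one_apply, sub_eq_zero] at hx
      rw [LinearMap.mem_ker, LinearMap.sub_apply, Module.End.one_apply, sub_eq_zero,
        LinearMap.comp_apply, Submodule.subtype_apply, ← h₂, hx])
  have hi' : Function.Injective i' := by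
    intro x y hxy
    apply Subtype.ext
    apply hi
    exact congrArg Subtype.val hxy
  have hq' : Function.Surjective q' := by
    intro w
    obtain ⟨b, hb⟩ := hq w.1
    refine ⟨⟨avgOp S₂ n b, avgOp_mem_ker S₂ n hS b⟩, ?_⟩
    apply Subtype.ext
    show q (avgOp S₂ n b) = w.1
    rw [avgOp_comm S₂ S₃ q h₂ n b, hb]
    have hw := w.2
    rw [LinearMap.mem_ker, LinearMap.sub_apply, Module.End.one_apply, sub_eq_zero] at hw
    exact avgOp_apply_of_fixed S₃ n hn hw
  have hex' : LinearMap.range i' = LinearMap.ker q' := by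
    ext b
    constructor
    · rintro ⟨a, rfl⟩
      rw [LinearMap.mem_ker]
      apply Subtype.ext
      show q (i a.1) = 0
      have : i a.1 ∈ LinearMap.ker q := by rw [← hex]; exact ⟨a.1, rfl⟩
      exact this
    · intro hb
      rw [LinearMap.mem_ker] at hb
      have hb' : q b.1 = 0 := congrArg Subtype.val hb
      have hmem : b.1 ∈ LinearMap.range i := by rw [hex]; exact hb'
      obtain ⟨a, ha⟩ := hmem
      have ha' : a ∈ LinearMap.ker (S₁ - 1) := by
        rw [LinearMap.mem_ker, LinearMap.sub_apply, Module.End.one_apply, sub_eq_zero]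
        apply hi
        have hb2 := b.2
        rw [LinearMap.mem_ker, LinearMap.sub_apply, Module.End.one_apply, sub_eq_zero] at hb2
        rw [h₁, ha, hb2]
      exact ⟨⟨a, ha'⟩, Subtype.ext ha⟩
  have h1 := LinearMap.finrank_range_add_finrank_ker q'
  rw [LinearMap.range_eq_top.2 hq', finrank_top, ← hex',
    LinearMap.finrank_range_of_inj hi'] at h1
  omega

end Exact

section MatOp

variable {k : Type} [Field k] {J : Type} [Fintype J] [DecidableEq J]
  {V : Type} [AddCommGroup V] [Module k V]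

/-- The operator `M ⊗ T` on `k^J ⊗ V = (J → V)`: `(matOp M T z) i = ∑ j, M i j • T (z j)`. -/
def matOp (M : Matrix J J k) (T : V →ₗ[k] V) : (J → V) →ₗ[k] (J → V) :=
  LinearMap.pi fun i => ∑ j, (M i j) • (T ∘ₗ LinearMap.proj j)

omit [DecidableEq J] in
theorem matOp_apply (M : Matrix J J k) (T : V →ₗ[k] V) (z : J → V) (i : J) :
    matOp M T z i = ∑ j, M i j • T (z j) := by
  simp [matOp, LinearMap.sum_apply]

theorem matOp_one_id : matOp (1 : Matrix J J k) (LinearMap.id : V →ₗ[k] V) = LinearMap.id := by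
  apply LinearMap.ext
  intro z
  funext i
  rw [matOp_apply]
  simp [Matrix.one_apply]

omit [DecidableEq J] in
theorem matOp_comp (M M' : Matrix J J k) (T T' : V →ₗ[k] V) :
    matOp M T ∘ₗ matOp M' T' = matOp (M * M') (T ∘ₗ T') := by
  apply LinearMap.ext
  intro z
  funext i
  rw [LinearMap.comp_apply, matOp_apply, matOp_apply]
  simp only [matOp_apply, map_sum, map_smul, Finset.smul_sum, smul_smul, Matrix.mul_apply,
    Finset.sum_smul, LinearMap.comp_apply]
  rw [Finset.sum_comm]

theorem matOp_pow (M : Matrix J J k) (T : V →ₗ[k] V) (n : ℕ) :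
    (matOp M T) ^ n = matOp (M ^ n) (T ^ n) := by
  induction n with
  | zero =>
    rw [pow_zero, pow_zero, pow_zero]
    exact matOp_one_id.symm
  | succ n ih =>
    rw [pow_succ, ih, pow_succ, pow_succ]
    exact matOp_comp _ _ _ _

theorem matOp_pow_eq_one (M : Matrix J J k) (T : V →ₗ[k] V) (n : ℕ) (hM : M ^ n = 1)
    (hT : T ^ n = 1) : (matOp M T) ^ n = 1 := by
  rw [matOp_pow, hM, hT]
  exact matOp_one_id

omit [DecidableEq J] in
/-- naturality of `matOp` in `V`. -/
theorem matOp_natural {W : Type} [AddCommGroup W] [Module k W] (M : Matrix J J k)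
    (T : V →ₗ[k] V) (T' : W →ₗ[k] W) (q : V →ₗ[k] W) (h : ∀ x, q (T x) = T' (q x))
    (z : J → V) : (fun j => q (matOp M T z j)) = matOp M T' (fun j => q (z j)) := by
  funext i
  simp only [matOp_apply, map_sum, map_smul, h]

end MatOp

end Fermat.Agent.S56.H614

end
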