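import Fermat.Agent.S56.H614.Red
import Fermat.Agent.S56.Euler.Big.Spec

/-!
# S56 / W-BASE / BASE-C (sub-architect helper614): the formal half

    CHAR-EULER (arithmetic)  +  Lemma A (algebra)  ⇒  BASE-C  (`Euler.BaseCSpec p`, frozen by helper366)

* `CharEulerSpec p` — **the arithmetic target**: for a normal level `U` of `S₀ ∋ p` trivial on
  `μ_p` there is a finite `S ⊇ S₀` such that for all `σ ∈ G_ℚ` of order prime to `p` modulo `U`
  the equivariant Euler–Poincaré identity `CharpolyId` holds for `X = Ind_U μ_p` and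
  `T = R_σ = H419.indR U (mu p) σ`:

  `charpoly (R_σ | H¹_S X) = charpoly (R_σ | H⁰ X) * charpoly (R_σ | H²_S X)
      * charpoly (R_σ | X^{c=-1})`.

* `baseC_of` : Lemma A + `CharEulerSpec p` + ADD + finiteness ⇒ `Euler.BaseCSpec p`;
* `eulerAll_of`: the same hypotheses give `φ_S(N) = 0` for ALL `N` trivial on `U`.
-/

set_option autoImplicit false
set_option linter.unusedSectionVars false

open Polynomial

noncomputable section

namespace Fermat.Agent.S56.H614

open Fermat.Agent.S55.PT Fermat.Agent.S56.H419 Fermat.Agent.S56.Euler groupCohomology Module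
  ExtCitation

variable (p : ℕ) [Fact p.Prime]

/-- (CHAR-EULER) **the arithmetic target of BASE-C.** -/
def CharEulerSpec : Prop :=
  p ≠ 2 → ∀ S₀ : Finset Nat.Primes, pPrime p ∈ S₀ →
    ∀ (U : Subgroup GQ) [U.Normal], U ∈ (globalLevels S₀).levels →
      (∀ u ∈ U, cycloChar p u = 1) →
      ∃ S : Finset Nat.Primes, S₀ ⊆ S ∧
        ∀ σ : GQ, ¬ p ∣ orderOf (σ : GQ ⧸ U) →
          CharpolyId (globalLevels S) complexConjugation (indRep U (mu p)) (indR U (mu p) σ)
            (indR_equivariant U (mu p) σ)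

section Aux

variable {k : Type} [Field k] {G : Type} [Group G]

/-- A normal subgroup `U ≤ V` acting trivially on `N` acts trivially on `Ind_V N`. -/
lemma indRep_trivial_of_le (U V : Subgroup G) [U.Normal] (hUV : U ≤ V)
    (N : Rep.{0, 0, 0} k G) (hN : ∀ u ∈ U, N.ρ u = 1) (u : G) (hu : u ∈ U)
    (a : indRep V N) : (indRep V N).ρ u a = a := by
  have h : indAct V N u = LinearMap.id := by
    apply Finsupp.lhom_ext
    intro x m
    rw [indAct_single, LinearMap.id_apply, hN u hu, Module.End.one_apply]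
    congr 1
    induction x using QuotientGroup.induction_on with
    | H g =>
      show ((u * g : G) : G ⧸ V) = (g : G ⧸ V)
      rw [QuotientGroup.eq]
      have h1 : (u * g)⁻¹ * g = g⁻¹ * u⁻¹ * g := by group
      rw [h1]
      apply hUV
      have := Subgroup.Normal.conj_mem (inferInstance : U.Normal) u⁻¹ (U.inv_mem hu) g⁻¹
      simpa using this
  exact LinearMap.congr_fun h a

end Aux

variable {p}

/-- **`φ_S ≡ 0` on all modules trivial on `U`, from CHAR-EULER at `S`.** -/
theorem eulerAll_of (hA : LemmaAStatement) (hGF : GlobalFiniteIndexSpec)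
    (S : Finset Nat.Primes) (hp2 : p ≠ 2)
    (hFin1 : FinGlobSpec p S) (hFin2 : H2FinGlobSpec p S) (hAdd : PhiAddSpec p S)
    (U : Subgroup GQ) [U.Normal] (hU : U ∈ (globalLevels S).levels)
    (hχ : ∀ u ∈ U, cycloChar p u = 1)
    (hid : ∀ σ : GQ, ¬ p ∣ orderOf (σ : GQ ⧸ U) →
      CharpolyId (globalLevels S) complexConjugation (indRep U (mu p)) (indR U (mu p) σ)
        (indR_equivariant U (mu p) σ))
    (N : Rep.{0, 0, 0} (ZMod p) GQ) (hNfd : FiniteDimensional (ZMod p) N)
    (hN : ∀ u ∈ U, ∀ n : N, N.ρ u n = n) :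
    phi (globalLevels S) complexConjugation N = 0 := by
  have : U.FiniteIndex := hGF S U hU
  have : Finite (GQ ⧸ U) := Subgroup.finite_quotient_of_finiteIndex
  have : Fintype (GQ ⧸ U) := Fintype.ofFinite _
  have hμ : ∀ u ∈ U, (mu p).ρ u = 1 := by
    intro u hu
    apply LinearMap.ext
    intro x
    rw [twTriv_ρ_apply, hχ u hu]
    simp
  have hXfd : FiniteDimensional (ZMod p) (indRep U (mu p)) :=
    inferInstanceAs (Module.Finite (ZMod p) ((GQ ⧸ U) →₀ ZMod p))
  have hXsm : (globalLevels S).IsUSmooth (indRep U (mu p)) :=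
    ⟨U, hU, fun s hs a => indRep_trivial_of_le U U le_rfl (mu p) hμ s hs a⟩
  exact red_of hA p GQ (globalLevels S) complexConjugation U (cycloChar p) hχ
    (hFin1 _ hXfd hXsm) (hFin2 _ hXfd hXsm)
    (fun A B C E hB htriv =>
      hAdd hp2 complexConjugation complexConjugation_mul_self A B C E hB ⟨U, hU, htriv⟩)
    hid N hNfd hN

/-- **BASE-C from CHAR-EULER** (and Lemma A, ADD, finiteness of `H¹`, `H²`). -/
theorem baseC_of (hA : LemmaAStatement) (hGF : GlobalFiniteIndexSpec)
    (hFin1 : ∀ S : Finset Nat.Primes, FinGlobSpec p S)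
    (hFin2 : ∀ S : Finset Nat.Primes, pPrime p ∈ S → H2FinGlobSpec p S)
    (hAdd : ∀ S : Finset Nat.Primes, pPrime p ∈ S → PhiAddSpec p S)
    (hCE : CharEulerSpec p) : BaseCSpec p := by
  intro hp2 S₀ hpS₀ U _ hU hχ
  obtain ⟨S, hS, hid⟩ := hCE hp2 S₀ hpS₀ U hU hχ
  refine ⟨S, hS, ?_⟩
  intro C _ _ N hNfd hNU
  have hUS : U ∈ (globalLevels S).levels := by
    obtain ⟨F, hF, rfl⟩ := hU
    exact ⟨F, hF.mono hS, rfl⟩
  have : U.FiniteIndex := hGF S U hUS
  have hUV : U ≤ C.comap (QuotientGroup.mk' U) := by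
    intro u hu
    rw [Subgroup.mem_comap, QuotientGroup.mk'_apply, (QuotientGroup.eq_one_iff u).2 hu]
    exact C.one_mem
  have : (C.comap (QuotientGroup.mk' U)).FiniteIndex := Subgroup.finiteIndex_of_le hUV
  have : Finite (GQ ⧸ C.comap (QuotientGroup.mk' U)) := Subgroup.finite_quotient_of_finiteIndex
  have : Fintype (GQ ⧸ C.comap (QuotientGroup.mk' U)) := Fintype.ofFinite _
  have : Module.Finite (ZMod p) N := hNfd
  have hfd : FiniteDimensional (ZMod p) (indRep (C.comap (QuotientGroup.mk' U)) N) :=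
    inferInstanceAs (Module.Finite (ZMod p) ((GQ ⧸ C.comap (QuotientGroup.mk' U)) →₀ N))
  exact eulerAll_of hA hGF S hp2 (hFin1 S) (hFin2 S (hS hpS₀)) (hAdd S (hS hpS₀))
    U hUS hχ hid _ hfd
    (fun u hu a => indRep_trivial_of_le U _ hUV N hNU u hu a)

end Fermat.Agent.S56.H614

end
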