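import Fermat.Agent.S55.PT.T2aH299.Push
import Fermat.Agent.S56.H419.EulerSign
import Fermat.Agent.S56.H614.AvgLA

/-!
# S56 / W-BASE / EUL-RED, part 2 (helper614): `k`-linear functors on representations

PT vocabulary.  A `LinFun k G` is a `k`-linear functor from `Rep k G` (objects + equivariant
linear maps) to `k`-modules.  Instances: `H0F`, `H1F L`, `H2F L` (level-constant cohomology of
S55/PT) and `minusF c` (`N ↦ N^{c = -1}`).

For every such functor `F`:

* `LinFun.kerEquiv` (EQUIV): if `T` is an equivariant endomorphism of `Z` with `T ^ n = 1`,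
  `n ≠ 0` in `k`, then `F (ker (T - 1)) ≃ ker (F T - 1)`;
* `LinFun.piEquiv` : `F (X^J) ≃ (F X)^J`, intertwining `F (M ⊗ T)` with `M ⊗ F T`
  (`LinFun.piEquiv_matOp`);
* `LinFun.finrank_kerRep_matOp` : `dim F (ker (M ⊗ T - 1)) = dim ker (M ⊗ F T - 1)`.
-/

set_option autoImplicit false

noncomputable section

namespace Fermat.Agent.S56.H614

open Fermat.Agent.S55.PT groupCohomology Module

variable {k : Type} [Field k] {G : Type} [Group G]

/-- A `k`-linear functor from representations to `k`-modules. -/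
structure LinFun (k : Type) [Field k] (G : Type) [Group G] where
  /-- on objects -/
  obj : Rep.{0, 0, 0} k G → Type
  [acg : ∀ A, AddCommGroup (obj A)]
  [mod : ∀ A, Module k (obj A)]
  /-- on equivariant maps -/
  map : ∀ {A B : Rep.{0, 0, 0} k G} (φ : A →ₗ[k] B), IsEquivariant φ → (obj A →ₗ[k] obj B)
  map_id : ∀ (A : Rep.{0, 0, 0} k G) (h : IsEquivariant (LinearMap.id : A →ₗ[k] A)),
    map LinearMap.id h = LinearMap.id
  map_comp : ∀ {A B C : Rep.{0, 0, 0} k G} (φ : A →ₗ[k] B) (ψ : B →ₗ[k] C)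
    (hφ : IsEquivariant φ) (hψ : IsEquivariant ψ) (hψφ : IsEquivariant (ψ ∘ₗ φ)),
    map (ψ ∘ₗ φ) hψφ = map ψ hψ ∘ₗ map φ hφ
  map_add : ∀ {A B : Rep.{0, 0, 0} k G} (φ ψ : A →ₗ[k] B)
    (hφ : IsEquivariant φ) (hψ : IsEquivariant ψ) (h : IsEquivariant (φ + ψ)),
    map (φ + ψ) h = map φ hφ + map ψ hψ
  map_smul : ∀ {A B : Rep.{0, 0, 0} k G} (a : k) (φ : A →ₗ[k] B)
    (hφ : IsEquivariant φ) (h : IsEquivariant (a • φ)),
    map (a • φ) h = a • map φ hφ

attribute [instance] LinFun.acg LinFun.mod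

/-! ### equivariance bookkeeping -/

section Equivariance

variable {A B : Rep.{0, 0, 0} k G}

lemma isEquivariant_id (A : Rep.{0, 0, 0} k G) : IsEquivariant (LinearMap.id : A →ₗ[k] A) :=
  fun _ _ => rfl

lemma isEquivariant_one (A : Rep.{0, 0, 0} k G) : IsEquivariant (1 : A →ₗ[k] A) :=
  fun _ _ => rfl

lemma isEquivariant_sub {φ ψ : A →ₗ[k] B} (hφ : IsEquivariant φ) (hψ : IsEquivariant ψ) :
    IsEquivariant (φ - ψ) := by
  intro g a
  have hφ' : ∀ (g : G) (a : A), φ (A.ρ g a) = B.ρ g (φ a) := hφ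
  have hψ' : ∀ (g : G) (a : A), ψ (A.ρ g a) = B.ρ g (ψ a) := hψ
  simp only [LinearMap.sub_apply, hφ', hψ', map_sub]

lemma isEquivariant_sum {ι : Type} (s : Finset ι) (φ : ι → A →ₗ[k] B)
    (hφ : ∀ i, IsEquivariant (φ i)) : IsEquivariant (∑ i ∈ s, φ i) := by
  classical
  induction s using Finset.induction_on with
  | empty =>
    rw [Finset.sum_empty]
    exact isEquivariant_zero
  | insert a s ha ih =>
    rw [Finset.sum_insert ha]
    exact isEquivariant_add (hφ a) ih

lemma isEquivariant_pow {T : A →ₗ[k] A} (hT : IsEquivariant T) (j : ℕ) :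
    IsEquivariant (T ^ j) := by
  induction j with
  | zero =>
    rw [pow_zero]
    exact isEquivariant_one A
  | succ j ih =>
    rw [pow_succ]
    exact isEquivariant_comp hT ih

lemma isEquivariant_avgOp {T : A →ₗ[k] A} (hT : IsEquivariant T) (n : ℕ) :
    IsEquivariant (avgOp T n) :=
  isEquivariant_smul _ (isEquivariant_sum _ _ fun j => isEquivariant_pow hT j)

end Equivariance

namespace LinFun

variable (F : LinFun k G) {A B : Rep.{0, 0, 0} k G}

lemma map_congr {φ ψ : A →ₗ[k] B} (h : φ = ψ) (hφ : IsEquivariant φ) (hψ : IsEquivariant ψ) :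
    F.map φ hφ = F.map ψ hψ := by
  subst h
  rfl

lemma map_zero (h : IsEquivariant (0 : A →ₗ[k] B)) : F.map (0 : A →ₗ[k] B) h = 0 := by
  have h1 : IsEquivariant ((0 : k) • (0 : A →ₗ[k] B)) := isEquivariant_smul _ h
  have h2 := F.map_smul (0 : k) (0 : A →ₗ[k] B) h h1
  have h3 : F.map (0 : A →ₗ[k] B) h = F.map ((0 : k) • (0 : A →ₗ[k] B)) h1 :=
    F.map_congr (zero_smul k _).symm _ _
  rw [h3, h2, zero_smul]

lemma map_one (h : IsEquivariant (1 : A →ₗ[k] A)) : F.map (1 : A →ₗ[k] A) h = 1 :=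
  F.map_id A h

lemma map_mul (T T' : A →ₗ[k] A) (hT : IsEquivariant T) (hT' : IsEquivariant T')
    (h : IsEquivariant (T * T')) : F.map (T * T') h = F.map T hT * F.map T' hT' :=
  F.map_comp T' T hT' hT h

lemma map_sub (φ ψ : A →ₗ[k] B) (hφ : IsEquivariant φ) (hψ : IsEquivariant ψ)
    (h : IsEquivariant (φ - ψ)) : F.map (φ - ψ) h = F.map φ hφ - F.map ψ hψ := by
  have h1 : IsEquivariant ((φ - ψ) + ψ) := isEquivariant_add h hψ
  have h2 := F.map_add (φ - ψ) ψ h hψ h1
  have h3 : F.map ((φ - ψ) + ψ) h1 = F.map φ hφ := F.map_congr (sub_add_cancel φ ψ) _ _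
  rw [h3] at h2
  rw [h2, add_sub_cancel_right]

lemma map_sum {ι : Type} (s : Finset ι) (φ : ι → A →ₗ[k] B)
    (hφ : ∀ i, IsEquivariant (φ i)) (h : IsEquivariant (∑ i ∈ s, φ i)) :
    F.map (∑ i ∈ s, φ i) h = ∑ i ∈ s, F.map (φ i) (hφ i) := by
  classical
  induction s using Finset.induction_on with
  | empty =>
    have : F.map (∑ i ∈ (∅ : Finset ι), φ i) h = F.map 0 isEquivariant_zero :=
      F.map_congr Finset.sum_empty _ _
    rw [this, F.map_zero, Finset.sum_empty]
  | insert a s ha ih =>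
    have h1 : IsEquivariant (φ a + ∑ i ∈ s, φ i) :=
      isEquivariant_add (hφ a) (isEquivariant_sum s φ hφ)
    have : F.map (∑ i ∈ insert a s, φ i) h = F.map (φ a + ∑ i ∈ s, φ i) h1 :=
      F.map_congr (Finset.sum_insert ha) _ _
    rw [this, F.map_add _ _ (hφ a) (isEquivariant_sum s φ hφ), ih, Finset.sum_insert ha]

lemma map_pow (T : A →ₗ[k] A) (hT : IsEquivariant T) (j : ℕ) (h : IsEquivariant (T ^ j)) :
    F.map (T ^ j) h = (F.map T hT) ^ j := by
  induction j with
  | zero =>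
    have : F.map (T ^ 0) h = F.map 1 (isEquivariant_one A) := F.map_congr (pow_zero T) _ _
    rw [this, F.map_one, pow_zero]
  | succ j ih =>
    have h1 : IsEquivariant (T ^ j * T) := isEquivariant_comp hT (isEquivariant_pow hT j)
    have : F.map (T ^ (j + 1)) h = F.map (T ^ j * T) h1 := F.map_congr (pow_succ T j) _ _
    rw [this, F.map_mul _ _ (isEquivariant_pow hT j) hT, ih, pow_succ]

lemma map_avgOp (T : A →ₗ[k] A) (hT : IsEquivariant T) (n : ℕ)
    (h : IsEquivariant (avgOp T n)) : F.map (avgOp T n) h = avgOp (F.map T hT) n := by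
  unfold avgOp at h ⊢
  rw [F.map_smul _ _ (isEquivariant_sum _ _ fun j => isEquivariant_pow hT j),
    F.map_sum _ _ (fun j => isEquivariant_pow hT j)]
  congr 1
  exact Finset.sum_congr rfl fun j _ => F.map_pow T hT j _

/-! ### EQUIV -/

section KerEquiv

variable {Z : Rep.{0, 0, 0} k G} (T : Z →ₗ[k] Z) (hT : IsEquivariant T)

/-- the retraction `Z → ker (T - 1)` given by averaging -/
def avgRetr (n : ℕ) (hTn : T ^ n = 1) : Z →ₗ[k] ↥(LinearMap.ker (T - 1)) :=
  (avgOp T n).codRestrict _ (avgOp_mem_ker T n hTn)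

include hT in
lemma avgRetr_equivariant (n : ℕ) (hTn : T ^ n = 1) :
    IsEquivariant (A := Z)
      (B := kerRep (T - 1) (isEquivariant_sub hT (isEquivariant_one Z))) (avgRetr T n hTn) := by
  intro g z
  apply Subtype.ext
  exact isEquivariant_avgOp hT n g z

lemma avgRetr_comp_kerIncl (n : ℕ) (hn : (n : k) ≠ 0) (hTn : T ^ n = 1) :
    avgRetr T n hTn ∘ₗ kerIncl (T - 1) = LinearMap.id := by
  apply LinearMap.ext
  intro x
  apply Subtype.ext
  have hx := x.2
  rw [LinearMap.mem_ker, LinearMap.sub_apply, Module.End.one_apply, sub_eq_zero] at hx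
  exact avgOp_apply_of_fixed T n hn hx

lemma kerIncl_comp_avgRetr (n : ℕ) (hTn : T ^ n = 1) :
    kerIncl (T - 1) ∘ₗ avgRetr T n hTn = avgOp T n := rfl

lemma comp_kerIncl_sub_one : T ∘ₗ kerIncl (T - 1) = kerIncl (T - 1) := by
  apply LinearMap.ext
  intro x
  have hx := x.2
  rw [LinearMap.mem_ker, LinearMap.sub_apply, Module.End.one_apply, sub_eq_zero] at hx
  exact hx

/-- `F (ker (T - 1)) → F Z` -/
def kerMap : F.obj (kerRep (T - 1) (isEquivariant_sub hT (isEquivariant_one Z))) →ₗ[k] F.obj Z :=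
  F.map (A := kerRep (T - 1) (isEquivariant_sub hT (isEquivariant_one Z))) (B := Z)
    (kerIncl (T - 1)) (kerIncl_equivariant (T - 1) _)

lemma kerMap_injective (n : ℕ) (hn : (n : k) ≠ 0) (hTn : T ^ n = 1) :
    Function.Injective (F.kerMap T hT) := by
  have hK := isEquivariant_sub hT (isEquivariant_one Z)
  have h1 : F.map (A := Z) (B := kerRep (T - 1) hK) (avgRetr T n hTn)
      (avgRetr_equivariant T hT n hTn) ∘ₗ F.kerMap T hT = LinearMap.id := by
    unfold kerMap
    rw [← F.map_comp (A := kerRep (T - 1) hK) (B := Z) (C := kerRep (T - 1) hK) _ _ _ _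
      (isEquivariant_comp (A := kerRep (T - 1) hK) (B := Z) (C := kerRep (T - 1) hK)
        (kerIncl_equivariant (T - 1) hK) (avgRetr_equivariant T hT n hTn))]
    rw [F.map_congr (A := kerRep (T - 1) hK) (B := kerRep (T - 1) hK)
      (avgRetr_comp_kerIncl T n hn hTn) _ (isEquivariant_id _), F.map_id]
  intro x y hxy
  have := congrArg (F.map (A := Z) (B := kerRep (T - 1) hK) (avgRetr T n hTn)
      (avgRetr_equivariant T hT n hTn)) hxy
  rw [← LinearMap.comp_apply, ← LinearMap.comp_apply, h1] at this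
  exact this

lemma range_kerMap (n : ℕ) (hn : (n : k) ≠ 0) (hTn : T ^ n = 1) :
    LinearMap.range (F.kerMap T hT) = LinearMap.ker (F.map T hT - 1) := by
  have hK := isEquivariant_sub hT (isEquivariant_one Z)
  apply le_antisymm
  · rintro _ ⟨x, rfl⟩
    rw [LinearMap.mem_ker, LinearMap.sub_apply, Module.End.one_apply, sub_eq_zero]
    unfold kerMap
    rw [← LinearMap.comp_apply, ← F.map_comp (A := kerRep (T - 1) hK) (B := Z) (C := Z) _ _ _ _
      (isEquivariant_comp (A := kerRep (T - 1) hK) (B := Z) (C := Z)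
        (kerIncl_equivariant (T - 1) hK) hT)]
    rw [F.map_congr (A := kerRep (T - 1) hK) (B := Z) (comp_kerIncl_sub_one T) _
      (kerIncl_equivariant (T - 1) hK)]
  · intro y hy
    rw [LinearMap.mem_ker, LinearMap.sub_apply, Module.End.one_apply, sub_eq_zero] at hy
    have hFn : (F.map T hT) ^ n = 1 := by
      rw [← F.map_pow T hT n (isEquivariant_pow hT n),
        F.map_congr hTn _ (isEquivariant_one Z), F.map_one]
    have h1 : avgOp (F.map T hT) n y = y := avgOp_apply_of_fixed _ n hn hy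
    rw [← F.map_avgOp T hT n (isEquivariant_avgOp hT n)] at h1
    have h2 : F.map (avgOp T n) (isEquivariant_avgOp hT n) =
        F.kerMap T hT ∘ₗ F.map (A := Z) (B := kerRep (T - 1) hK) (avgRetr T n hTn)
          (avgRetr_equivariant T hT n hTn) := by
      unfold kerMap
      rw [← F.map_comp (A := Z) (B := kerRep (T - 1) hK) (C := Z) _ _ _ _
        (isEquivariant_comp (A := Z) (B := kerRep (T - 1) hK) (C := Z)
          (avgRetr_equivariant T hT n hTn) (kerIncl_equivariant (T - 1) hK))]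
      exact F.map_congr (kerIncl_comp_avgRetr T n hTn).symm _ _
    rw [h2] at h1
    exact ⟨_, h1⟩

/-- **EQUIV.**  `F (ker (T - 1)) ≃ ker (F T - 1)` for `T ^ n = 1`, `n ≠ 0` in `k`. -/
def kerEquiv (n : ℕ) (hn : (n : k) ≠ 0) (hTn : T ^ n = 1) :
    F.obj (kerRep (T - 1) (isEquivariant_sub hT (isEquivariant_one Z))) ≃ₗ[k]
      ↥(LinearMap.ker (F.map T hT - 1)) :=
  (LinearEquiv.ofInjective (F.kerMap T hT) (F.kerMap_injective T hT n hn hTn)).trans
    (LinearEquiv.ofEq _ _ (F.range_kerMap T hT n hn hTn))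

end KerEquiv

end LinFun

end Fermat.Agent.S56.H614

end
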