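import Fermat.Agent.S56.H614.LinFunPi

/-!
# S56 / W-BASE / EUL-RED, part 4 (helper614): the four functors and the Euler characteristic
of `ker (M ⊗ T - 1)`

* `H0F`, `H1F L`, `H2F L`, `minusF c : LinFun k G`;
* `phi_kerRep_matOp`: for an equivariant `T` on `X` with `T ^ n = 1`, a matrix `M` with
  `M ^ n = 1`, `n ≠ 0` in `k`:
  `φ (ker (M ⊗ T - 1) ⊆ X^J) = d(H⁰ T) − d(H¹ T) + d(H² T) + d(T | X^{c=-1})`, where
  `d(S) = dim ker (M ⊗ S - 1)`.
-/

set_option autoImplicit false
set_option linter.unusedSectionVars false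

noncomputable section

namespace Fermat.Agent.S56.H614

open Fermat.Agent.S55.PT Fermat.Agent.S56.H419 groupCohomology Module

variable {k : Type} [Field k] {G : Type} [Group G]

/-- `H⁰` as a linear functor. -/
def H0F : LinFun k G where
  obj A := ↥(LevelSys.H0 A)
  map φ hφ := pushH0 φ hφ
  map_id _ _ := by
    apply LinearMap.ext
    intro x
    rfl
  map_comp _ _ _ _ _ := by
    apply LinearMap.ext
    intro x
    rfl
  map_add _ _ _ _ _ := by
    apply LinearMap.ext
    intro x
    rfl
  map_smul _ _ _ _ := by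
    apply LinearMap.ext
    intro x
    rfl

/-- `H¹_L` as a linear functor. -/
def H1F (L : LevelSys G) : LinFun k G where
  obj A := L.H1 A
  map φ hφ := pushH1 φ hφ L
  map_id A _ := by
    apply LinearMap.ext
    intro x
    obtain ⟨c, rfl⟩ := L.H1π_surjective A x
    rfl
  map_comp {A _ _} _ _ _ _ _ := by
    apply LinearMap.ext
    intro x
    obtain ⟨c, rfl⟩ := L.H1π_surjective A x
    rfl
  map_add {A B} φ ψ hφ hψ h := by
    apply LinearMap.ext
    intro x
    obtain ⟨c, rfl⟩ := L.H1π_surjective A x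
    rw [LinearMap.add_apply, pushH1_mk, pushH1_mk, pushH1_mk, ← map_add]
    rfl
  map_smul {A B} a φ hφ h := by
    apply LinearMap.ext
    intro x
    obtain ⟨c, rfl⟩ := L.H1π_surjective A x
    rw [LinearMap.smul_apply, pushH1_mk, pushH1_mk, ← map_smul]
    rfl

/-- `H²_L` as a linear functor. -/
def H2F (L : LevelSys G) : LinFun k G where
  obj A := L.H2 A
  map φ hφ := pushH2 φ hφ L
  map_id A _ := by
    apply LinearMap.ext
    intro x
    obtain ⟨c, rfl⟩ := L.H2π_surjective A x
    rfl
  map_comp {A _ _} _ _ _ _ _ := by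
    apply LinearMap.ext
    intro x
    obtain ⟨c, rfl⟩ := L.H2π_surjective A x
    rfl
  map_add {A B} φ ψ hφ hψ h := by
    apply LinearMap.ext
    intro x
    obtain ⟨c, rfl⟩ := L.H2π_surjective A x
    rw [LinearMap.add_apply, pushH2_mk, pushH2_mk, pushH2_mk, ← map_add]
    rfl
  map_smul {A B} a φ hφ h := by
    apply LinearMap.ext
    intro x
    obtain ⟨c, rfl⟩ := L.H2π_surjective A x
    rw [LinearMap.smul_apply, pushH2_mk, pushH2_mk, ← map_smul]
    rfl

/-- an equivariant map preserves the `(-1)`-eigenspaces of `c` -/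
lemma map_mem_minusPart (c : G) {A B : Rep.{0, 0, 0} k G} (φ : A →ₗ[k] B)
    (hφ : IsEquivariant φ) (a : A) (ha : a ∈ minusPart c A) : φ a ∈ minusPart c B := by
  rw [mem_minusPart] at ha ⊢
  rw [← hφ c a, ha, map_neg]

/-- the map induced on the `(-1)`-eigenspaces of `c` -/
def minusMap (c : G) {A B : Rep.{0, 0, 0} k G} (φ : A →ₗ[k] B) (hφ : IsEquivariant φ) :
    ↥(minusPart c A) →ₗ[k] ↥(minusPart c B) :=
  φ.restrict (map_mem_minusPart c φ hφ)

@[simp] lemma coe_minusMap (c : G) {A B : Rep.{0, 0, 0} k G} (φ : A →ₗ[k] B)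
    (hφ : IsEquivariant φ) (a : ↥(minusPart c A)) : (minusMap c φ hφ a : B) = φ a := rfl

/-- `N ↦ N^{c = -1}` as a linear functor. -/
def minusF (c : G) : LinFun k G where
  obj A := ↥(minusPart c A)
  map φ hφ := minusMap c φ hφ
  map_id _ _ := by
    apply LinearMap.ext
    intro x
    rfl
  map_comp _ _ _ _ _ := by
    apply LinearMap.ext
    intro x
    rfl
  map_add _ _ _ _ _ := by
    apply LinearMap.ext
    intro x
    rfl
  map_smul _ _ _ _ := by
    apply LinearMap.ext
    intro x
    rfl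

/-- `d_M(S) = dim ker (M ⊗ S - 1)` -/
def dimFix {J : Type} [Fintype J] [DecidableEq J] (M : Matrix J J k) {V : Type}
    [AddCommGroup V] [Module k V] (S : V →ₗ[k] V) : ℕ :=
  finrank k ↥(LinearMap.ker (matOp M S - 1))

/-- **The Euler characteristic (with archimedean term) of `ker (M ⊗ T - 1)`.** -/
theorem phi_kerRep_matOp (L : LevelSys G) (c : G) {J : Type} [Fintype J] [DecidableEq J]
    {X : Rep.{0, 0, 0} k G} (M : Matrix J J k) (T : X →ₗ[k] X) (hT : IsEquivariant T)
    (n : ℕ) (hn : (n : k) ≠ 0) (hM : M ^ n = 1) (hTn : T ^ n = 1) :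
    phi L c (kerRep (A := piRep J X) (B := piRep J X) (matOp M T - 1)
      (isEquivariant_sub (matOp_equivariant J M hT) (isEquivariant_one _))) =
      (dimFix M (pushH0 T hT) : ℤ) - dimFix M (pushH1 T hT L) + dimFix M (pushH2 T hT L)
        + dimFix M (minusMap c T hT) := by
  have h0 := (H0F (k := k) (G := G)).finrank_kerRep_matOp J M T hT n hn hM hTn
  have h1 := (H1F (k := k) L).finrank_kerRep_matOp J M T hT n hn hM hTn
  have h2 := (H2F (k := k) L).finrank_kerRep_matOp J M T hT n hn hM hTn
  have h3 := (minusF (k := k) c).finrank_kerRep_matOp J M T hT n hn hM hTn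
  unfold phi eulerChar dimFix
  have e0 : finrank k ↥(LevelSys.H0 (kerRep (A := piRep J X) (B := piRep J X) (matOp M T - 1)
      (isEquivariant_sub (matOp_equivariant J M hT) (isEquivariant_one _)))) =
      finrank k ↥(LinearMap.ker (matOp M (pushH0 T hT) - 1)) := h0
  have e1 : finrank k (L.H1 (kerRep (A := piRep J X) (B := piRep J X) (matOp M T - 1)
      (isEquivariant_sub (matOp_equivariant J M hT) (isEquivariant_one _)))) =
      finrank k ↥(LinearMap.ker (matOp M (pushH1 T hT L) - 1)) := h1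
  have e2 : finrank k (L.H2 (kerRep (A := piRep J X) (B := piRep J X) (matOp M T - 1)
      (isEquivariant_sub (matOp_equivariant J M hT) (isEquivariant_one _)))) =
      finrank k ↥(LinearMap.ker (matOp M (pushH2 T hT L) - 1)) := h2
  have e3 : finrank k ↥(minusPart c (kerRep (A := piRep J X) (B := piRep J X) (matOp M T - 1)
      (isEquivariant_sub (matOp_equivariant J M hT) (isEquivariant_one _)))) =
      finrank k ↥(LinearMap.ker (matOp M (minusMap c T hT) - 1)) := h3
  rw [e0, e1, e2, e3]

end Fermat.Agent.S56.H614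

end
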