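import Fermat.Agent.S56.H614.LinFun

/-!
# S56 / W-BASE / EUL-RED, part 3 (helper614): finite powers `X^J` and the operators `M ⊗ T`

* `piRep J X`: the representation on `J → X` (pointwise action);
* `matOp_equivariant`: `M ⊗ T` is equivariant on `X^J` if `T` is on `X`;
* `LinFun.piEquiv : F (X^J) ≃ (F X)^J`, `LinFun.piEquiv_matOp`;
* `LinFun.finrank_kerRep_matOp`:
  `dim F (ker (M ⊗ T - 1)) = dim ker (M ⊗ F T - 1)` if `M ^ n = 1`, `T ^ n = 1`, `n ≠ 0` in `k`.
-/

set_option autoImplicit false
set_option linter.unusedSectionVars false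

noncomputable section

namespace Fermat.Agent.S56.H614

open Fermat.Agent.S55.PT groupCohomology Module

variable {k : Type} [Field k] {G : Type} [Group G]

/-! ### conjugation invariance of `dim ker (S - 1)` -/

theorem finrank_ker_sub_one_conj {V W : Type} [AddCommGroup V] [Module k V] [AddCommGroup W]
    [Module k W] (e : V ≃ₗ[k] W) (S : V →ₗ[k] V) (S' : W →ₗ[k] W)
    (h : ∀ x, e (S x) = S' (e x)) :
    finrank k ↥(LinearMap.ker (S - 1)) = finrank k ↥(LinearMap.ker (S' - 1)) := by
  have hmap : (LinearMap.ker (S - 1)).map (e : V →ₗ[k] W) = LinearMap.ker (S' - 1) := by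
    ext w
    constructor
    · rintro ⟨x, hx, rfl⟩
      rw [SetLike.mem_coe, LinearMap.mem_ker, LinearMap.sub_apply, Module.End.one_apply,
        sub_eq_zero] at hx
      rw [LinearMap.mem_ker, LinearMap.sub_apply, Module.End.one_apply, sub_eq_zero]
      show S' (e x) = e x
      rw [← h, hx]
    · intro hw
      rw [LinearMap.mem_ker, LinearMap.sub_apply, Module.End.one_apply, sub_eq_zero] at hw
      refine ⟨e.symm w, ?_, e.apply_symm_apply w⟩
      rw [SetLike.mem_coe, LinearMap.mem_ker, LinearMap.sub_apply, Module.End.one_apply,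
        sub_eq_zero]
      apply e.injective
      rw [h, e.apply_symm_apply, hw]
  rw [← hmap]
  exact (LinearEquiv.finrank_eq (e.submoduleMap (LinearMap.ker (S - 1))))

/-! ### the representation on `J → X` -/

section Pi

variable (J : Type) (X : Rep.{0, 0, 0} k G)

/-- pointwise action on `J → X` -/
def piRho : Representation k G (J → X) where
  toFun g := (X.ρ g).compLeft J
  map_one' := by
    apply LinearMap.ext
    intro z
    funext j
    simp
  map_mul' g h := by
    apply LinearMap.ext
    intro z
    funext j
    simp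

/-- `X^J` -/
abbrev piRep : Rep.{0, 0, 0} k G := Rep.of (piRho J X)

lemma piRep_ρ_apply (g : G) (z : J → X) (j : J) :
    ((piRep J X).ρ g z : J → X) j = X.ρ g (z j) := rfl

lemma proj_equivariant (j : J) :
    IsEquivariant (A := piRep J X) (B := X) (LinearMap.proj j : (J → X) →ₗ[k] X) :=
  fun _ _ => rfl

variable [DecidableEq J]

lemma single_equivariant (j : J) :
    IsEquivariant (A := X) (B := piRep J X) (LinearMap.single k (fun _ : J => (X : Type)) j) := by
  intro g x
  funext i
  show (Pi.single j (X.ρ g x) : J → X) i = X.ρ g ((Pi.single j x : J → X) i)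
  by_cases hij : i = j
  · subst hij
    simp
  · simp [Pi.single_eq_of_ne hij]

variable [Fintype J]

variable {X} in
lemma matOp_equivariant (M : Matrix J J k) {T : X →ₗ[k] X} (hT : IsEquivariant T) :
    IsEquivariant (A := piRep J X) (B := piRep J X) (matOp M T) := by
  intro g z
  have hT' : ∀ (g : G) (a : X), T (X.ρ g a) = X.ρ g (T a) := hT
  funext i
  rw [matOp_apply]
  show _ = X.ρ g (matOp M T z i)
  rw [matOp_apply, map_sum]
  refine Finset.sum_congr rfl fun j _ => ?_
  rw [map_smul, ← hT']
  rfl

end Pi

namespace LinFun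

variable (F : LinFun k G) (J : Type) [Fintype J] [DecidableEq J] (X : Rep.{0, 0, 0} k G)

/-- `F (X^J) → (F X)^J` -/
def piTo : F.obj (piRep J X) →ₗ[k] (J → F.obj X) :=
  LinearMap.pi fun j => F.map (A := piRep J X) (B := X) (LinearMap.proj j) (proj_equivariant J X j)

/-- `(F X)^J → F (X^J)` -/
def piFrom : (J → F.obj X) →ₗ[k] F.obj (piRep J X) :=
  ∑ j, (F.map (A := X) (B := piRep J X) (LinearMap.single k (fun _ : J => (X : Type)) j)
    (single_equivariant J X j)) ∘ₗ (LinearMap.proj j)

lemma piTo_apply (z : F.obj (piRep J X)) (j : J) :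
    F.piTo J X z j =
      F.map (A := piRep J X) (B := X) (LinearMap.proj j) (proj_equivariant J X j) z := rfl

lemma piFrom_apply (h : J → F.obj X) :
    F.piFrom J X h = ∑ j, F.map (A := X) (B := piRep J X)
      (LinearMap.single k (fun _ : J => (X : Type)) j) (single_equivariant J X j) (h j) := by
  simp [piFrom, LinearMap.sum_apply]

lemma proj_comp_single (i j : J) :
    (LinearMap.proj i : (J → X) →ₗ[k] X) ∘ₗ (LinearMap.single k (fun _ : J => (X : Type)) j) =
      if i = j then LinearMap.id else 0 := by
  apply LinearMap.ext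
  intro x
  by_cases hij : i = j
  · subst hij
    simp
  · rw [if_neg hij]
    simp [Pi.single_eq_of_ne hij]

lemma sum_single_comp_proj :
    ∑ j, (LinearMap.single k (fun _ : J => (X : Type)) j) ∘ₗ
      (LinearMap.proj j : (J → X) →ₗ[k] X) = LinearMap.id := by
  apply LinearMap.ext
  intro z
  funext i
  simp only [LinearMap.sum_apply, LinearMap.comp_apply, LinearMap.proj_apply,
    LinearMap.single_apply, LinearMap.id_apply, Finset.sum_apply]
  rw [Finset.sum_eq_single i]
  · simp
  · intro j _ hji
    exact Pi.single_eq_of_ne (Ne.symm hji) _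
  · intro h
    exact absurd (Finset.mem_univ i) h

lemma piTo_piFrom (h : J → F.obj X) : F.piTo J X (F.piFrom J X h) = h := by
  funext i
  rw [piTo_apply, piFrom_apply, _root_.map_sum]
  rw [Finset.sum_eq_single i]
  · rw [← LinearMap.comp_apply, ← F.map_comp (A := X) (B := piRep J X) (C := X) _ _ _ _
      (isEquivariant_comp (A := X) (B := piRep J X) (C := X) (single_equivariant J X i)
        (proj_equivariant J X i))]
    have : (LinearMap.proj i : (J → X) →ₗ[k] X) ∘ₗ
        (LinearMap.single k (fun _ : J => (X : Type)) i) = LinearMap.id := by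
      rw [proj_comp_single, if_pos rfl]
    rw [F.map_congr (A := X) (B := X) this _ (isEquivariant_id X), F.map_id]
    rfl
  · intro j _ hji
    rw [← LinearMap.comp_apply, ← F.map_comp (A := X) (B := piRep J X) (C := X) _ _ _ _
      (isEquivariant_comp (A := X) (B := piRep J X) (C := X) (single_equivariant J X j)
        (proj_equivariant J X i))]
    have : (LinearMap.proj i : (J → X) →ₗ[k] X) ∘ₗ
        (LinearMap.single k (fun _ : J => (X : Type)) j) = 0 := by
      rw [proj_comp_single, if_neg (Ne.symm hji)]
    rw [F.map_congr (A := X) (B := X) this _ isEquivariant_zero, F.map_zero]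
    rfl
  · intro h
    exact absurd (Finset.mem_univ i) h

lemma piFrom_piTo (z : F.obj (piRep J X)) : F.piFrom J X (F.piTo J X z) = z := by
  rw [piFrom_apply]
  have h1 : ∀ j : J, F.map (A := X) (B := piRep J X)
      (LinearMap.single k (fun _ : J => (X : Type)) j) (single_equivariant J X j)
        (F.piTo J X z j) =
      F.map (A := piRep J X) (B := piRep J X)
        ((LinearMap.single k (fun _ : J => (X : Type)) j) ∘ₗ
          (LinearMap.proj j : (J → X) →ₗ[k] X))
        (isEquivariant_comp (A := piRep J X) (B := X) (C := piRep J X) (proj_equivariant J X j)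
          (single_equivariant J X j)) z := by
    intro j
    rw [F.map_comp (A := piRep J X) (B := X) (C := piRep J X) _ _ (proj_equivariant J X j)
      (single_equivariant J X j)]
    rfl
  rw [Finset.sum_congr rfl fun j _ => h1 j, ← LinearMap.sum_apply,
    ← F.map_sum (A := piRep J X) (B := piRep J X) Finset.univ
      (fun j => (LinearMap.single k (fun _ : J => (X : Type)) j) ∘ₗ
          (LinearMap.proj j : (J → X) →ₗ[k] X))
      (fun j => isEquivariant_comp (A := piRep J X) (B := X) (C := piRep J X)
        (proj_equivariant J X j) (single_equivariant J X j))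
      (isEquivariant_sum (A := piRep J X) (B := piRep J X) _ _ fun j =>
        isEquivariant_comp (A := piRep J X) (B := X) (C := piRep J X)
          (proj_equivariant J X j) (single_equivariant J X j))]
  rw [F.map_congr (A := piRep J X) (B := piRep J X) (sum_single_comp_proj J X) _
    (isEquivariant_id _), F.map_id]
  rfl

/-- `F (X^J) ≃ (F X)^J` -/
def piEquiv : F.obj (piRep J X) ≃ₗ[k] (J → F.obj X) :=
  { F.piTo J X with
    invFun := F.piFrom J X
    left_inv := F.piFrom_piTo J X
    right_inv := F.piTo_piFrom J X }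

lemma piEquiv_apply (z : F.obj (piRep J X)) (j : J) :
    F.piEquiv J X z j =
      F.map (A := piRep J X) (B := X) (LinearMap.proj j) (proj_equivariant J X j) z := rfl

variable {X}

lemma proj_comp_matOp (M : Matrix J J k) (T : X →ₗ[k] X) (i : J) :
    (LinearMap.proj i : (J → X) →ₗ[k] X) ∘ₗ matOp M T =
      ∑ j, (M i j) • (T ∘ₗ (LinearMap.proj j : (J → X) →ₗ[k] X)) := by
  apply LinearMap.ext
  intro z
  simp [matOp_apply, LinearMap.sum_apply]

/-- `F (M ⊗ T)` corresponds to `M ⊗ F T`. -/
lemma piEquiv_matOp (M : Matrix J J k) (T : X →ₗ[k] X) (hT : IsEquivariant T)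
    (z : F.obj (piRep J X)) :
    F.piEquiv J X (F.map (A := piRep J X) (B := piRep J X) (matOp M T)
      (matOp_equivariant J M hT) z) = matOp M (F.map T hT) (F.piEquiv J X z) := by
  funext i
  rw [piEquiv_apply, matOp_apply, ← LinearMap.comp_apply,
    ← F.map_comp (A := piRep J X) (B := piRep J X) (C := X) _ _ _ _
      (isEquivariant_comp (A := piRep J X) (B := piRep J X) (C := X)
        (matOp_equivariant J M hT) (proj_equivariant J X i))]
  have hj : ∀ j : J, IsEquivariant (A := piRep J X) (B := X)
      ((M i j) • (T ∘ₗ (LinearMap.proj j : (J → X) →ₗ[k] X))) := fun j =>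
    isEquivariant_smul _ (isEquivariant_comp (A := piRep J X) (B := X) (C := X)
      (proj_equivariant J X j) hT)
  rw [F.map_congr (A := piRep J X) (B := X) (proj_comp_matOp J M T i) _
    (isEquivariant_sum (A := piRep J X) (B := X) _ _ hj),
    F.map_sum (A := piRep J X) (B := X) _ _ hj, LinearMap.sum_apply]
  refine Finset.sum_congr rfl fun j _ => ?_
  rw [F.map_smul (A := piRep J X) (B := X) _ _
    (isEquivariant_comp (A := piRep J X) (B := X) (C := X) (proj_equivariant J X j) hT),
    F.map_comp (A := piRep J X) (B := X) (C := X) _ _ (proj_equivariant J X j) hT]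
  rfl

/-- **EQUIV for `M ⊗ T`.** -/
theorem finrank_kerRep_matOp (M : Matrix J J k) (T : X →ₗ[k] X) (hT : IsEquivariant T)
    (n : ℕ) (hn : (n : k) ≠ 0) (hM : M ^ n = 1) (hTn : T ^ n = 1) :
    finrank k (F.obj (kerRep (A := piRep J X) (B := piRep J X) (matOp M T - 1)
      (isEquivariant_sub (matOp_equivariant J M hT) (isEquivariant_one _)))) =
      finrank k ↥(LinearMap.ker (matOp M (F.map T hT) - 1)) := by
  have h1 := (F.kerEquiv (Z := piRep J X) (matOp M T) (matOp_equivariant J M hT) n hn
    (matOp_pow_eq_one M T n hM hTn)).finrank_eq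
  rw [h1]
  exact finrank_ker_sub_one_conj (F.piEquiv J X) _ _ (F.piEquiv_matOp J M T hT)

end LinFun

end Fermat.Agent.S56.H614

end
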