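import Fermat.Agent.S56.H614.RedSpec
import Fermat.Agent.S56.Euler.Ind

/-!
# S56 / W-BASE / EUL-RED, part 5 (helper614): proof of `RedStatement` from `LemmaAStatement`

Pieces:
* `LinFun.finrank_eq_of_iso`, `phi_eq_of_iso`: isomorphism invariance;
* `LinFun.indRRep`: the representation of `G ⧸ U` on `F (Ind_U M₀)` by right translations;
* `dimFixInv M σ`: the additive invariant `A ↦ dim ker (M ⊗ σ − 1 | A^J)` (`dimFixInv_additive`);
* `phi_kerRep_eq_zero`: `CharpolyId` for all `p`-regular elements + `Euler.key` ⇒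
  `φ (ker (M ⊗ R_σ − 1)) = 0`;
* `red_of : LemmaAStatement → RedStatement` (via `Euler.ind`).
-/

set_option autoImplicit false
set_option linter.unusedSectionVars false

open Polynomial

noncomputable section

namespace Fermat.Agent.S56.H614

open Fermat.Agent.S55.PT Fermat.Agent.S56.H419 Fermat.Agent.S56.Euler groupCohomology Module

variable {k : Type} [Field k] {G : Type} [Group G]

/-! ### isomorphism invariance -/

namespace LinFun

variable (F : LinFun k G) {A B : Rep.{0, 0, 0} k G}

lemma symm_equivariant (e : A ≃ₗ[k] B) (he : IsEquivariant (e : A →ₗ[k] B)) :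
    IsEquivariant (e.symm : B →ₗ[k] A) := by
  intro g b
  have he' : ∀ (g : G) (a : A), e (A.ρ g a) = B.ρ g (e a) := he
  apply e.injective
  show e (e.symm (B.ρ g b)) = e (A.ρ g (e.symm b))
  rw [e.apply_symm_apply, he', e.apply_symm_apply]

/-- functors preserve isomorphisms -/
def isoEquiv (e : A ≃ₗ[k] B) (he : IsEquivariant (e : A →ₗ[k] B)) : F.obj A ≃ₗ[k] F.obj B :=
  LinearEquiv.ofLinearMap (F.map (e : A →ₗ[k] B) he)
    (F.map (e.symm : B →ₗ[k] A) (symm_equivariant e he))
    (by
      rw [← F.map_comp _ _ _ _ (isEquivariant_comp (symm_equivariant e he) he),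
        F.map_congr (e.comp_symm) _ (isEquivariant_id B), F.map_id])
    (by
      rw [← F.map_comp _ _ _ _ (isEquivariant_comp he (symm_equivariant e he)),
        F.map_congr (e.symm_comp) _ (isEquivariant_id A), F.map_id])

lemma finrank_eq_of_iso (e : A ≃ₗ[k] B) (he : IsEquivariant (e : A →ₗ[k] B)) :
    finrank k (F.obj A) = finrank k (F.obj B) :=
  (F.isoEquiv e he).finrank_eq

end LinFun

/-- `φ` is invariant under isomorphisms. -/
theorem phi_eq_of_iso (L : LevelSys G) (c : G) {A B : Rep.{0, 0, 0} k G} (e : A ≃ₗ[k] B)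
    (he : IsEquivariant (e : A →ₗ[k] B)) : phi L c A = phi L c B := by
  have e0 : finrank k ↥(LevelSys.H0 A) = finrank k ↥(LevelSys.H0 B) :=
    (H0F (k := k) (G := G)).finrank_eq_of_iso e he
  have e1 : finrank k (L.H1 A) = finrank k (L.H1 B) :=
    (H1F (k := k) L).finrank_eq_of_iso e he
  have e2 : finrank k (L.H2 A) = finrank k (L.H2 B) :=
    (H2F (k := k) L).finrank_eq_of_iso e he
  have e3 : finrank k ↥(minusPart c A) = finrank k ↥(minusPart c B) :=
    (minusF (k := k) c).finrank_eq_of_iso e he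
  unfold phi eulerChar
  rw [e0, e1, e2, e3]

/-! ### the right-translation representation of `G ⧸ U` on `F (Ind_U M₀)` -/

namespace LinFun

variable (F : LinFun k G) (U : Subgroup G) [U.Normal] (M₀ : Rep.{0, 0, 0} k G)

/-- `σ ↦ F (R_σ)` -/
def indRHom : G →* (F.obj (indRep U M₀) →ₗ[k] F.obj (indRep U M₀)) where
  toFun σ := F.map (A := indRep U M₀) (B := indRep U M₀) (indR U M₀ σ)
    (indR_equivariant U M₀ σ)
  map_one' := by
    rw [F.map_congr (A := indRep U M₀) (B := indRep U M₀) (indR_one U M₀) _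
      (isEquivariant_id _), F.map_id]
    rfl
  map_mul' σ τ := by
    rw [F.map_congr (A := indRep U M₀) (B := indRep U M₀) (indR_mul U M₀ σ τ) _
      (isEquivariant_comp (A := indRep U M₀) (B := indRep U M₀) (C := indRep U M₀)
        (indR_equivariant U M₀ τ) (indR_equivariant U M₀ σ)),
      F.map_comp (A := indRep U M₀) (B := indRep U M₀) (C := indRep U M₀) _ _
        (indR_equivariant U M₀ τ) (indR_equivariant U M₀ σ)]
    rfl

lemma indRHom_apply (σ : G) :
    F.indRHom U M₀ σ = F.map (A := indRep U M₀) (B := indRep U M₀) (indR U M₀ σ)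
      (indR_equivariant U M₀ σ) := rfl

lemma le_ker_indRHom : U ≤ (F.indRHom U M₀).ker := by
  intro u hu
  rw [MonoidHom.mem_ker, indRHom_apply]
  have h1 : indR U M₀ u = indR U M₀ 1 :=
    indR_congr U M₀ (by rw [(QuotientGroup.eq_one_iff u).2 hu]; rfl)
  rw [F.map_congr (A := indRep U M₀) (B := indRep U M₀) (h1.trans (indR_one U M₀)) _
    (isEquivariant_id _), F.map_id]
  rfl

/-- the representation of `G ⧸ U` on `F (Ind_U M₀)` by right translations -/
def indRRep : Representation k (G ⧸ U) (F.obj (indRep U M₀)) :=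
  QuotientGroup.lift U (F.indRHom U M₀) (F.le_ker_indRHom U M₀)

lemma indRRep_mk (σ : G) :
    F.indRRep U M₀ (σ : G ⧸ U) = F.map (A := indRep U M₀) (B := indRep U M₀) (indR U M₀ σ)
      (indR_equivariant U M₀ σ) := rfl

/-- `F (Ind_U M₀)` as a bundled finite-dimensional representation of `G ⧸ U` -/
def indRData (hfin : Module.Finite k (F.obj (indRep U M₀))) : FDRepData k (G ⧸ U) where
  V := F.obj (indRep U M₀)
  fin := hfin
  ρ := F.indRRep U M₀

end LinFun

/-! ### the additive invariant `A ↦ dim ker (M ⊗ σ − 1 | A^J)` -/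

section DimFixInv

variable {Γ : Type} [Group Γ] {J : Type} [Fintype J] [DecidableEq J]

/-- `A ↦ dim ker (M ⊗ A.ρ σ − 1)` -/
def dimFixInv (M : Matrix J J k) (σ : Γ) : RepInv k Γ := fun A => (dimFix M (A.ρ σ) : ℤ)

lemma compLeft_injective {V W : Type} [AddCommGroup V] [Module k V] [AddCommGroup W]
    [Module k W] (i : V →ₗ[k] W) (hi : Function.Injective i) :
    Function.Injective (i.compLeft J) := by
  intro x y hxy
  funext j
  exact hi (congrFun hxy j)

lemma compLeft_surjective {V W : Type} [AddCommGroup V] [Module k V] [AddCommGroup W]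
    [Module k W] (q : V →ₗ[k] W) (hq : Function.Surjective q) :
    Function.Surjective (q.compLeft J) := by
  intro y
  choose x hx using fun j => hq (y j)
  exact ⟨x, funext hx⟩

lemma compLeft_exact {V₁ V₂ V₃ : Type} [AddCommGroup V₁] [Module k V₁] [AddCommGroup V₂]
    [Module k V₂] [AddCommGroup V₃] [Module k V₃] (i : V₁ →ₗ[k] V₂) (q : V₂ →ₗ[k] V₃)
    (h : LinearMap.range i = LinearMap.ker q) :
    LinearMap.range (i.compLeft J) = LinearMap.ker (q.compLeft J) := by
  ext y
  constructor
  · rintro ⟨x, rfl⟩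
    rw [LinearMap.mem_ker]
    funext j
    have : i (x j) ∈ LinearMap.ker q := by rw [← h]; exact ⟨x j, rfl⟩
    exact this
  · intro hy
    rw [LinearMap.mem_ker] at hy
    have hj : ∀ j, y j ∈ LinearMap.range i := by
      intro j
      rw [h, LinearMap.mem_ker]
      exact congrFun hy j
    choose x hx using hj
    exact ⟨x, funext hx⟩

theorem dimFixInv_additive (M : Matrix J J k) (σ : Γ) (n : ℕ) (hn : (n : k) ≠ 0)
    (hM : M ^ n = 1) (hσ : σ ^ n = 1) : IsAdditiveInv (dimFixInv (k := k) M σ) := by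
  intro A B C i q hE
  have hB : (matOp M (B.ρ σ)) ^ n = 1 := by
    apply matOp_pow_eq_one M _ n hM
    rw [← map_pow, hσ, map_one]
  have key := finrank_ker_sub_one_of_exact (k := k) (i.compLeft J) (q.compLeft J)
    (compLeft_injective i hE.inj) (compLeft_surjective q hE.surj) (compLeft_exact i q hE.exact)
    (matOp M (A.ρ σ)) (matOp M (B.ρ σ)) (matOp M (C.ρ σ))
    (fun x => matOp_natural M (A.ρ σ) (B.ρ σ) i (fun a => hE.equivar_i σ a) x)
    (fun x => matOp_natural M (B.ρ σ) (C.ρ σ) q (fun a => hE.equivar_q σ a) x)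
    n hn hB
  unfold dimFixInv dimFix
  rw [key]
  push_cast
  ring

end DimFixInv

/-! ### `CharpolyId` + `Euler.key` ⇒ `φ (ker (M ⊗ R_σ − 1)) = 0` -/

section Key

variable (U : Subgroup G) [U.Normal] (M₀ : Rep.{0, 0, 0} k G)

lemma indR_pow (σ : G) (n : ℕ) : (indR U M₀ σ) ^ n = indR U M₀ (σ ^ n) := by
  induction n with
  | zero =>
    rw [pow_zero, pow_zero, indR_one]
    rfl
  | succ n ih =>
    rw [pow_succ, pow_succ, indR_mul, ih]
    rfl

lemma indR_pow_eq_one (σ : G) (n : ℕ) (hσ : (σ : G ⧸ U) ^ n = 1) :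
    (indR U M₀ σ) ^ n = 1 := by
  rw [indR_pow]
  have h1 : indR U M₀ (σ ^ n) = indR U M₀ 1 := indR_congr U M₀ (by
    rw [QuotientGroup.mk_pow, hσ]
    rfl)
  rw [h1, indR_one]
  rfl

end Key


end Fermat.Agent.S56.H614

end
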