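import Fermat.Agent.S56.H614.Red1

/-!
# S56 / W-BASE / EUL-RED, part 6 (helper614): `CharpolyId` + `Euler.key` ⇒
`φ (ker (M ⊗ R_σ − 1)) = 0`
-/

set_option autoImplicit false
set_option linter.unusedSectionVars false

open Polynomial

noncomputable section

namespace Fermat.Agent.S56.H614

open Fermat.Agent.S55.PT Fermat.Agent.S56.H419 Fermat.Agent.S56.Euler groupCohomology Module

variable {k : Type} [Field k] {G : Type} [Group G]



section Main

variable (p : ℕ) [Fact p.Prime] {G : Type} [Group G] (L : LevelSys G) (c : G)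
  (U : Subgroup G) [U.Normal] [U.FiniteIndex] (M₀ : Rep.{0, 0, 0} (ZMod p) G)

/-- the four `G ⧸ U`-modules `H⁰, H¹, H², (·)^{c=-1}` of `Ind_U M₀` -/
def fourData (h0 : Module.Finite (ZMod p) ↥(LevelSys.H0 (indRep U M₀)))
    (h1 : Module.Finite (ZMod p) (L.H1 (indRep U M₀)))
    (h2 : Module.Finite (ZMod p) (L.H2 (indRep U M₀)))
    (h3 : Module.Finite (ZMod p) ↥(minusPart c (indRep U M₀))) :
    Fin 4 → FDRepData (ZMod p) (G ⧸ U) :=
  ![(H0F (k := ZMod p) (G := G)).indRData U M₀ h0, (H1F (k := ZMod p) L).indRData U M₀ h1,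
    (H2F (k := ZMod p) L).indRData U M₀ h2, (minusF (k := ZMod p) c).indRData U M₀ h3]

variable {p L c U M₀}

lemma charpoly_fourData (h0 : Module.Finite (ZMod p) ↥(LevelSys.H0 (indRep U M₀)))
    (h1 : Module.Finite (ZMod p) (L.H1 (indRep U M₀)))
    (h2 : Module.Finite (ZMod p) (L.H2 (indRep U M₀)))
    (h3 : Module.Finite (ZMod p) ↥(minusPart c (indRep U M₀)))
    (hX : Module.Finite (ZMod p) (indRep U M₀)) (τ : G)
    (hid : CharpolyId L c (indRep U M₀) (indR U M₀ τ) (indR_equivariant U M₀ τ)) :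
    ∏ i, LinearMap.charpoly ((fourData p L c U M₀ h0 h1 h2 h3 i).ρ (τ : G ⧸ U)) ^
        ((![0, 1, 0, 0] : Fin 4 → ℕ) i) =
      ∏ i, LinearMap.charpoly ((fourData p L c U M₀ h0 h1 h2 h3 i).ρ (τ : G ⧸ U)) ^
        ((![1, 0, 1, 1] : Fin 4 → ℕ) i) := by
  have hid' := hid hX h1 h2
  rw [Fin.prod_univ_four, Fin.prod_univ_four]
  have e0 : LinearMap.charpoly ((fourData p L c U M₀ h0 h1 h2 h3 0).ρ (τ : G ⧸ U)) =
      LinearMap.charpoly (pushH0 (A := indRep U M₀) (B := indRep U M₀) (indR U M₀ τ)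
        (indR_equivariant U M₀ τ)) := rfl
  have e1 : LinearMap.charpoly ((fourData p L c U M₀ h0 h1 h2 h3 1).ρ (τ : G ⧸ U)) =
      LinearMap.charpoly (pushH1 (A := indRep U M₀) (B := indRep U M₀) (indR U M₀ τ)
        (indR_equivariant U M₀ τ) L) := rfl
  have e2 : LinearMap.charpoly ((fourData p L c U M₀ h0 h1 h2 h3 2).ρ (τ : G ⧸ U)) =
      LinearMap.charpoly (pushH2 (A := indRep U M₀) (B := indRep U M₀) (indR U M₀ τ)
        (indR_equivariant U M₀ τ) L) := rfl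
  have e3 : LinearMap.charpoly ((fourData p L c U M₀ h0 h1 h2 h3 3).ρ (τ : G ⧸ U)) =
      LinearMap.charpoly (minusMap (A := indRep U M₀) (B := indRep U M₀) c (indR U M₀ τ)
        (indR_equivariant U M₀ τ)) := rfl
  rw [e0, e1, e2, e3]
  have n0 : (![0, 1, 0, 0] : Fin 4 → ℕ) 0 = 0 := rfl
  have n1 : (![0, 1, 0, 0] : Fin 4 → ℕ) 1 = 1 := rfl
  have n2 : (![0, 1, 0, 0] : Fin 4 → ℕ) 2 = 0 := rfl
  have n3 : (![0, 1, 0, 0] : Fin 4 → ℕ) 3 = 0 := rfl
  have m0 : (![1, 0, 1, 1] : Fin 4 → ℕ) 0 = 1 := rfl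
  have m1 : (![1, 0, 1, 1] : Fin 4 → ℕ) 1 = 0 := rfl
  have m2 : (![1, 0, 1, 1] : Fin 4 → ℕ) 2 = 1 := rfl
  have m3 : (![1, 0, 1, 1] : Fin 4 → ℕ) 3 = 1 := rfl
  rw [n0, n1, n2, n3, m0, m1, m2, m3]
  simp only [pow_zero, pow_one, one_mul, mul_one]
  exact hid'

/-- **`CharpolyId` for all `p`-regular elements ⇒ `φ (ker (M ⊗ R_σ − 1)) = 0`.** -/
theorem phi_kerRep_eq_zero [Module.Finite (ZMod p) M₀]
    (h1 : Module.Finite (ZMod p) (L.H1 (indRep U M₀)))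
    (h2 : Module.Finite (ZMod p) (L.H2 (indRep U M₀)))
    (hId : ∀ σ : G, ¬ p ∣ orderOf (σ : G ⧸ U) →
      CharpolyId L c (indRep U M₀) (indR U M₀ σ) (indR_equivariant U M₀ σ))
    {J : Type} [Fintype J] [DecidableEq J] (M : Matrix J J (ZMod p)) (σ : G) (n : ℕ)
    (hn : ¬ p ∣ n) (hM : M ^ n = 1) (hσ : (σ : G ⧸ U) ^ n = 1) :
    phi L c (kerRep (A := piRep J (indRep U M₀)) (B := piRep J (indRep U M₀))
      (matOp M (indR U M₀ σ) - 1)
      (isEquivariant_sub (A := piRep J (indRep U M₀)) (B := piRep J (indRep U M₀))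
        (matOp_equivariant J M (indR_equivariant U M₀ σ)) (isEquivariant_one _))) = 0 := by
  classical
  have hn' : ((n : ℕ) : ZMod p) ≠ 0 := by
    rw [Ne, ZMod.natCast_eq_zero_iff]
    exact hn
  have : Finite (G ⧸ U) := Subgroup.finite_quotient_of_finiteIndex
  have : Fintype (G ⧸ U) := Fintype.ofFinite _
  have hX : Module.Finite (ZMod p) (indRep U M₀) :=
    inferInstanceAs (Module.Finite (ZMod p) ((G ⧸ U) →₀ M₀))
  have h0 : Module.Finite (ZMod p) ↥(LevelSys.H0 (indRep U M₀)) := inferInstance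
  have h3 : Module.Finite (ZMod p) ↥(minusPart c (indRep U M₀)) := inferInstance
  have hkey := key p (G ⧸ U) (Fin 4) (fourData p L c U M₀ h0 h1 h2 h3) ![0, 1, 0, 0]
    ![1, 0, 1, 1]
    (fun g hg => by
      obtain ⟨τ, rfl⟩ := QuotientGroup.mk_surjective g
      exact charpoly_fourData h0 h1 h2 h3 hX τ (hId τ hg))
    (dimFixInv (k := ZMod p) M (σ : G ⧸ U)) (dimFixInv_additive M _ n hn' hM hσ)
  rw [Fin.sum_univ_four, Fin.sum_univ_four] at hkey
  have n0 : (![0, 1, 0, 0] : Fin 4 → ℕ) 0 = 0 := rfl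
  have n1 : (![0, 1, 0, 0] : Fin 4 → ℕ) 1 = 1 := rfl
  have n2 : (![0, 1, 0, 0] : Fin 4 → ℕ) 2 = 0 := rfl
  have n3 : (![0, 1, 0, 0] : Fin 4 → ℕ) 3 = 0 := rfl
  have m0 : (![1, 0, 1, 1] : Fin 4 → ℕ) 0 = 1 := rfl
  have m1 : (![1, 0, 1, 1] : Fin 4 → ℕ) 1 = 0 := rfl
  have m2 : (![1, 0, 1, 1] : Fin 4 → ℕ) 2 = 1 := rfl
  have m3 : (![1, 0, 1, 1] : Fin 4 → ℕ) 3 = 1 := rfl
  rw [n0, n1, n2, n3, m0, m1, m2, m3] at hkey
  have e0 : dimFixInv (k := ZMod p) M (σ : G ⧸ U) (fourData p L c U M₀ h0 h1 h2 h3 0) =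
      (dimFix M (pushH0 (A := indRep U M₀) (B := indRep U M₀) (indR U M₀ σ)
        (indR_equivariant U M₀ σ)) : ℤ) := rfl
  have e1 : dimFixInv (k := ZMod p) M (σ : G ⧸ U) (fourData p L c U M₀ h0 h1 h2 h3 1) =
      (dimFix M (pushH1 (A := indRep U M₀) (B := indRep U M₀) (indR U M₀ σ)
        (indR_equivariant U M₀ σ) L) : ℤ) := rfl
  have e2 : dimFixInv (k := ZMod p) M (σ : G ⧸ U) (fourData p L c U M₀ h0 h1 h2 h3 2) =
      (dimFix M (pushH2 (A := indRep U M₀) (B := indRep U M₀) (indR U M₀ σ)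
        (indR_equivariant U M₀ σ) L) : ℤ) := rfl
  have e3 : dimFixInv (k := ZMod p) M (σ : G ⧸ U) (fourData p L c U M₀ h0 h1 h2 h3 3) =
      (dimFix M (minusMap (A := indRep U M₀) (B := indRep U M₀) c (indR U M₀ σ)
        (indR_equivariant U M₀ σ)) : ℤ) := rfl
  rw [e0, e1, e2, e3] at hkey
  have hphi := phi_kerRep_matOp (X := indRep U M₀) L c M (indR U M₀ σ)
    (indR_equivariant U M₀ σ) n hn' hM (indR_pow_eq_one U M₀ σ n hσ)
  rw [hphi]
  push_cast at hkey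
  linarith

end Main

end Fermat.Agent.S56.H614

end
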